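/-
The Hesse family with full level `3` structure:
`y² = x³ - 27 c₄ x - 54 c₆` with `c₄ = u(u³+216v³)`, `D = v(u³-27v³)`, `c₄³ - c₆² = 1728 D³`.
-/
import Fermat.Agent.Switch.Universal

set_option autoImplicit false
set_option linter.unusedSectionVars false

open WeierstrassCurve Matrix

namespace FA.Switch.L3

variable {R : Type*} [CommRing R]

/-- `c₄` of the family. -/
def hc4 (u v : R) : R := u * (u ^ 3 + 216 * v ^ 3)

/-- `c₆` of the family. -/
def hc6 (u v : R) : R := u ^ 6 - 540 * u ^ 3 * v ^ 3 - 5832 * v ^ 6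

/-- The cusp form of degree `4`. -/
def hD (u v : R) : R := v * (u ^ 3 - 27 * v ^ 3)

lemma hesse_syzygy (u v : R) : hc4 u v ^ 3 - hc6 u v ^ 2 = 1728 * hD u v ^ 3 := by
  simp only [hc4, hc6, hD]; ring

variable {S : Type*} [CommRing S] (f : R →+* S)

lemma map_hc4 (u v : R) : f (hc4 u v) = hc4 (f u) (f v) := by simp [hc4, map_ofNat]

lemma map_hc6 (u v : R) : f (hc6 u v) = hc6 (f u) (f v) := by simp [hc6, map_ofNat]

lemma map_hD (u v : R) : f (hD u v) = hD (f u) (f v) := by simp [hD, map_ofNat]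

section field

variable {K : Type*} [Field K] [CharZero K]

lemma hc4_smul (c u v : K) : hc4 (c * u) (c * v) = c ^ 4 * hc4 u v := by simp only [hc4]; ring

lemma hc6_smul (c u v : K) : hc6 (c * u) (c * v) = c ^ 6 * hc6 u v := by simp only [hc6]; ring

lemma hD_smul (c u v : K) : hD (c * u) (c * v) = c ^ 4 * hD u v := by simp only [hD]; ring

/-- `c₄` and the cusp form have no common zero. -/
lemma eq_zero_of_common {u v : K} (h4 : hc4 u v = 0) (hd : hD u v = 0) : u = 0 ∧ v = 0 := by
  simp only [hc4, hD] at h4 hd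
  rcases mul_eq_zero.mp hd with hv | hq
  · subst hv
    exact ⟨eq_zero_of_pow_eq_zero (n := 4) (by linear_combination h4), rfl⟩
  rcases mul_eq_zero.mp h4 with hu | hp
  · subst hu
    exact ⟨rfl, eq_zero_of_pow_eq_zero (n := 3) (by linear_combination -hq / 27)⟩
  · have hv : v = 0 := eq_zero_of_pow_eq_zero (n := 3) (by linear_combination (hp - hq) / 243)
    subst hv
    exact ⟨eq_zero_of_pow_eq_zero (n := 3) (by linear_combination hq), rfl⟩

/-- The tetrahedral involution, for `l² = -1/3`. -/
def hesseS (l : K) : Matrix (Fin 2) (Fin 2) K := l • !![1, 6; 1 / 3, -1]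

variable {l : K} (hl : 3 * l ^ 2 + 1 = 0)

include hl

lemma hesseS_det : (hesseS l).det = 1 := by
  rw [hesseS, det_smul, det_fin_two]
  simp
  linear_combination -hl

lemma hesseS_sq : hesseS l * hesseS l = (-1 : K) • 1 := by
  rw [hesseS]
  ext i j
  fin_cases i <;> fin_cases j <;> simp [Matrix.mul_apply, Fin.sum_univ_two] <;> grind

lemma hesseS_invariant (w : Fin 2 → K) :
    hc4 ((hesseS l).mulVec w 0) ((hesseS l).mulVec w 1) = hc4 (w 0) (w 1) ∧
    hc6 ((hesseS l).mulVec w 0) ((hesseS l).mulVec w 1) = hc6 (w 0) (w 1) := by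
  set u := w 0
  set v := w 1
  have h0 : (hesseS l).mulVec w 0 = l * (u + 6 * v) := by
    simp [hesseS, u, v, mul_add, Matrix.mulVec, dotProduct, Fin.sum_univ_two]; ring
  have h1 : (hesseS l).mulVec w 1 = l * ((u - 3 * v) / 3) := by
    simp [hesseS, u, v, Matrix.mulVec, dotProduct, Fin.sum_univ_two]; ring
  have h4 : l ^ 4 = 1 / 9 := by linear_combination ((3 * l ^ 2 - 1) / 9) * hl
  have h6 : l ^ 6 = -(1 / 27) := by linear_combination ((9 * l ^ 4 - 3 * l ^ 2 + 1) / 27) * hl
  rw [h0, h1, hc4_smul, hc6_smul, h4, h6]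
  constructor <;> simp only [hc4, hc6] <;> ring

end field

section dblPt

variable {L : Type*} [Field L] [CharZero L] [DecidableEq L] {s u v : L}
  (hs : s ^ 2 = 3) {W : WeierstrassCurve L} [W.IsElliptic]
  (hW : W = shortKl (hc4 u v) (hc6 u v))

include hs hW

lemma nonsingular_pt : W.toAffine.Nonsingular (9 * u ^ 2) (12 * s * (u ^ 3 - 27 * v ^ 3)) := by
  refine Affine.equation_iff_nonsingular.mp ?_
  subst hW
  rw [Affine.equation_iff]
  simp only [shortKl, zero_mul, add_zero, hc4, hc6]
  linear_combination 144 * (u ^ 3 - 27 * v ^ 3) ^ 2 * hs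

lemma ptY_ne_zero : 12 * s * (u ^ 3 - 27 * v ^ 3) ≠ 0 := by
  refine mul_ne_zero (mul_ne_zero (by norm_num) fun h => ?_) fun h => ?_
  · rw [h] at hs; norm_num at hs
  · subst hW
    have hd := (shortKl (hc4 u v) (hc6 u v)).isUnit_Δ.ne_zero
    rw [shortKl_Δ, hesse_syzygy, hD, h] at hd
    exact hd (by ring)

lemma three_nsmul_pt : (3 : ℕ) • Affine.Point.some _ _ (nonsingular_pt hs hW) = 0 := by
  have hY := ptY_ne_zero hs hW
  subst hW
  set P := Affine.Point.some _ _ (nonsingular_pt hs (rfl : shortKl (hc4 u v) (hc6 u v) = _))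
  set x := 9 * u ^ 2
  set y := 12 * s * (u ^ 3 - 27 * v ^ 3)
  have hne : y ≠ (shortKl (hc4 u v) (hc6 u v)).toAffine.negY x y := by
    simp only [Affine.negY, shortKl, zero_mul, sub_zero]
    intro h
    exact hY (by linear_combination h / 2)
  have hsl : (shortKl (hc4 u v) (hc6 u v)).toAffine.slope x x y y = 3 * s * u := by
    rw [Affine.slope_of_Y_ne rfl hne]
    simp only [Affine.negY, shortKl, zero_mul, sub_zero, mul_zero, add_zero]
    rw [div_eq_iff (by intro h; exact hY (by linear_combination h / 2))]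
    simp only [x, y, hc4]
    linear_combination -72 * u * (u ^ 3 - 27 * v ^ 3) * hs
  have hdbl : P + P = -P := by
    show Affine.Point.some x y _ + Affine.Point.some x y _ = -Affine.Point.some x y _
    rw [Affine.Point.add_self_of_Y_ne hne, Affine.Point.neg_some]
    simp only [Affine.Point.some.injEq, hsl]
    constructor
    · simp only [Affine.addX, shortKl, zero_mul, add_zero, sub_zero, x]
      linear_combination 9 * u ^ 2 * hs
    · simp only [Affine.addY, Affine.negAddY, Affine.negY, Affine.addX, shortKl, zero_mul,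
        add_zero, sub_zero, x, y]
      linear_combination -27 * s * u ^ 3 * hs
  have e : (3 : ℕ) • P = (P + P) + P := by abel
  rw [e, hdbl, neg_add_cancel]

end dblPt

end FA.Switch.L3
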