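/-
The universal curve with full level `3` structure, its specialisations and symmetries.
-/
import Fermat.Agent.Switch.Level3.Forms

set_option autoImplicit false
set_option linter.unusedSectionVars false

open WeierstrassCurve MvPolynomial

namespace FA.Switch.L3

variable (K : Type*) [Field K] [CharZero K]

/-- `c₄` as a polynomial. -/
noncomputable def polyC4 : ParR K := hc4 (X 0) (X 1)

/-- `c₆` as a polynomial. -/
noncomputable def polyC6 : ParR K := hc6 (X 0) (X 1)

/-- The cusp form as a polynomial. -/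
noncomputable def polyD : ParR K := hD (X 0) (X 1)

variable {K} in
lemma eval_polyC4 (w : Fin 2 → K) : MvPolynomial.eval w (polyC4 K) = hc4 (w 0) (w 1) := by
  simp [polyC4, map_hc4]

variable {K} in
lemma eval_polyC6 (w : Fin 2 → K) : MvPolynomial.eval w (polyC6 K) = hc6 (w 0) (w 1) := by
  simp [polyC6, map_hc6]

variable {K} in
lemma eval_polyD (w : Fin 2 → K) : MvPolynomial.eval w (polyD K) = hD (w 0) (w 1) := by
  simp [polyD, map_hD]

/-- The universal curve. -/
noncomputable def WR : WeierstrassCurve (ParR K) := shortKl (polyC4 K) (polyC6 K)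

/-- The generic curve. -/
noncomputable abbrev EG : WeierstrassCurve (ParF K) :=
  (WR K).map (algebraMap (ParR K) (ParF K))

lemma polyD_ne_zero : polyD K ≠ 0 := fun h => by
  have h1 := congrArg (MvPolynomial.eval (fun _ => (1 : K))) h
  rw [eval_polyD, map_zero, hD] at h1
  norm_num at h1

lemma WR_Δ_ne_zero : (WR K).Δ ≠ 0 := by
  have h : (WR K).Δ = 1259712 * (1728 * polyD K ^ 3) := by
    rw [WR, shortKl_Δ, polyC4, polyC6, hesse_syzygy, polyD]
  rw [h]
  exact mul_ne_zero (num_ne_zero 1259712) (mul_ne_zero (num_ne_zero 1728)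
    (pow_ne_zero 3 (polyD_ne_zero K)))

instance : (EG K).IsElliptic := ⟨by
  rw [WeierstrassCurve.map_Δ]
  exact ((map_ne_zero_iff _ (IsFractionRing.injective _ _)).mpr (WR_Δ_ne_zero K)).isUnit⟩

/-- The `3`-torsion of the generic curve. -/
noncomputable abbrev T3 := Submodule.torsionBy ℤ (EG K).toAffine.Point 3

variable {K}

/-- The embedding of constants. -/
noncomputable abbrev cF : K →+* ParF K := (algebraMap (ParR K) (ParF K)).comp MvPolynomial.C

/-- The variables in the function field. -/
noncomputable abbrev xF (i : Fin 2) : ParF K := algebraMap (ParR K) (ParF K) (X i)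

lemma EG_eq : EG K = shortKl (hc4 (xF (K := K) 0) (xF 1)) (hc6 (xF (K := K) 0) (xF 1)) := by
  rw [EG, WR, shortKl_map, polyC4, polyC6, map_hc4, map_hc6]

lemma mem_T3 {P : (EG K).toAffine.Point} (h : (3 : ℕ) • P = 0) :
    P ∈ Submodule.torsionBy ℤ (EG K).toAffine.Point 3 := by
  rw [Submodule.mem_torsionBy_iff, ← h]
  exact_mod_cast (natCast_zsmul P 3)

lemma nsmul_T3 (P : T3 K) : (3 : ℕ) • P.1 = 0 := by
  have := (Submodule.mem_torsionBy_iff _ _).mp P.2
  rw [← natCast_zsmul]
  exact_mod_cast this

lemma isUnit_three : IsUnit ((3 : ℕ) : ParR K) := by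
  rw [← map_natCast (MvPolynomial.C : K →+* ParR K) 3]
  exact (Nat.cast_ne_zero.mpr (by norm_num)).isUnit.map _

lemma odd_three : Odd (3 : ℕ) := ⟨1, rfl⟩

/-- The coordinates of a non-zero torsion point are polynomials. -/
lemma T3_cases (P : T3 K) :
    P = 0 ∨ ∃ (r s : ParR K) (h : (EG K).toAffine.Nonsingular (algebraMap _ _ r) (algebraMap _ _ s)),
      P.1 = .some _ _ h := by
  rcases hP : P.1 with _ | ⟨X, Y, h⟩
  · exact .inl (Subtype.ext hP)
  · obtain ⟨r, s, rfl, rfl⟩ := exists_coords odd_three isUnit_three h (hP ▸ nsmul_T3 P)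
    exact .inr ⟨r, s, h, rfl⟩

section endo

variable (φ : ParR K →+* ParR K) (hφ : Function.Injective φ)

/-- The extension to fractions. -/
noncomputable def fracExt : ParF K →+* ParF K := IsFractionRing.map hφ

lemma fracExt_algebraMap (r : ParR K) :
    fracExt φ hφ (algebraMap (ParR K) (ParF K) r) = algebraMap _ _ (φ r) :=
  by simp [fracExt, IsFractionRing.map]

variable (h4 : φ (polyC4 K) = polyC4 K) (h6 : φ (polyC6 K) = polyC6 K)

include h4 h6 in
lemma EG_map_fracExt : (EG K).map (fracExt φ hφ) = EG K := by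
  rw [EG, WR, shortKl_map, shortKl_map, fracExt_algebraMap, fracExt_algebraMap, h4, h6]

/-- The endomorphism of the generic `3`-torsion induced by a symmetry of the parameters. -/
noncomputable def endoT : T3 K →+ T3 K :=
  AddMonoidHom.mk'
    (fun P => ⟨FA.Frob.mapHom (fracExt φ hφ) (EG_map_fracExt φ hφ h4 h6) P.1,
      mem_T3 (by rw [← map_nsmul, nsmul_T3, map_zero])⟩)
    fun P Q => Subtype.ext (map_add (FA.Frob.mapHom (fracExt φ hφ) _) P.1 Q.1)

lemma endoT_some {P : T3 K} {x y : ParF K} {h : (EG K).toAffine.Nonsingular x y}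
    (hP : P.1 = .some x y h) :
    (endoT φ hφ h4 h6 P).1 = .some (fracExt φ hφ x) (fracExt φ hφ y)
      (FA.Frob.nonsingular_mapHom _ (EG_map_fracExt φ hφ h4 h6) h) := by
  show FA.Frob.mapHom _ _ P.1 = _
  rw [hP]; rfl

end endo

section spec

variable [IsAlgClosed K] [DecidableEq K]

/-- The parameters `w` give the curve with invariants `(a, b)`. -/
structure Sat (w : Fin 2 → K) (a b : K) : Prop where
  eq4 : hc4 (w 0) (w 1) = a
  eq6 : hc6 (w 0) (w 1) = b
  disc : a ^ 3 ≠ b ^ 2

lemma Sat.WR_map {w : Fin 2 → K} {a b : K} (h : Sat w a b) :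
    (WR K).map (MvPolynomial.eval w) = shortKl a b := by
  rw [WR, shortKl_map, eval_polyC4, eval_polyC6, h.eq4, h.eq6]

lemma Sat.hD_ne_zero {w : Fin 2 → K} {a b : K} (h : Sat w a b) : hD (w 0) (w 1) ≠ 0 := by
  intro h0
  have := hesse_syzygy (w 0) (w 1)
  rw [h.eq4, h.eq6, h0] at this
  exact h.disc (by linear_combination this)

lemma Sat.isElliptic {w : Fin 2 → K} {a b : K} (h : Sat w a b) :
    ((WR K).map (MvPolynomial.eval w)).IsElliptic := by
  rw [h.WR_map]; exact shortKl_isElliptic h.disc

/-- The identification of the special curve with its short model. -/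
noncomputable def transfer {w : Fin 2 → K} {a b : K} (h : Sat w a b) :
    ((WR K).map (MvPolynomial.eval w)).toAffine.Point →+ (shortKl a b).toAffine.Point :=
  FA.Frob.mapHom (W := ((WR K).map (MvPolynomial.eval w)).toAffine) (RingHom.id K)
    ((WeierstrassCurve.map_id _).trans h.WR_map)

/-- Specialisation of the generic `3`-torsion at `w`. -/
noncomputable def spt {w : Fin 2 → K} {a b : K} (h : Sat w a b) :
    T3 K →+ (shortKl a b).toAffine.Point :=
  haveI := h.isElliptic
  (transfer h).comp
    ((Submodule.torsionBy ℤ _ _).subtype.toAddMonoidHom.comp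
      (specHom (ev := MvPolynomial.eval w) (F := ParF K) (W := WR K) odd_three isUnit_three))

variable {w : Fin 2 → K} {a b : K} (hw : Sat w a b)

lemma three_nsmul_spt (P : T3 K) : (3 : ℕ) • spt hw P = 0 := by
  rw [← map_nsmul, show (3 : ℕ) • P = 0 from Subtype.ext (nsmul_T3 P), map_zero]

lemma spt_injective : Function.Injective (spt hw) := by
  haveI := hw.isElliptic
  exact (show Function.Injective (transfer hw) from FA.Frob.mapHom_injective _ _).comp
    (Subtype.val_injective.comp (specHom_injective odd_three isUnit_three))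

lemma spt_some {P : T3 K} {r s : ParR K}
    {h : (EG K).toAffine.Nonsingular (algebraMap _ _ r) (algebraMap _ _ s)}
    (hP : P.1 = .some _ _ h) :
    ∃ h', spt hw P = .some (MvPolynomial.eval w r) (MvPolynomial.eval w s) h' := by
  haveI := hw.isElliptic
  have hs := specHom_spec (ev := MvPolynomial.eval w) (F := ParF K) (W := WR K) odd_three
    isUnit_three P
  rw [hP] at hs
  rcases hQ : (specHom (ev := MvPolynomial.eval w) (F := ParF K) (W := WR K) odd_three isUnit_three
    P).1 with _ | ⟨x, y, hxy⟩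
  · exfalso
    rw [hQ] at hs
    exact hs
  · rw [hQ] at hs
    have hx := hs.1.unique (rel_of r)
    have hy := hs.2.unique (rel_of s)
    subst hx hy
    refine ⟨FA.Frob.nonsingular_mapHom (W := ((WR K).map (MvPolynomial.eval w)).toAffine)
      (RingHom.id K) ((WeierstrassCurve.map_id _).trans hw.WR_map) hxy, ?_⟩
    show transfer hw ((specHom (ev := MvPolynomial.eval w) (F := ParF K) (W := WR K)
      odd_three isUnit_three P).1) = _
    rw [hQ]
    rfl

/-- Specialisation commutes with the symmetries. -/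
theorem spt_natural {w' : Fin 2 → K} {a' b' : K} (hw' : Sat w' a' b') (φ : ParR K →+* ParR K)
    (hφ : Function.Injective φ) (h4 : φ (polyC4 K) = polyC4 K) (h6 : φ (polyC6 K) = polyC6 K)
    (τ : K →+* K) (hτ : (shortKl a' b').map τ = shortKl a b)
    (hev : ∀ p, MvPolynomial.eval w (φ p) = τ (MvPolynomial.eval w' p)) (P : T3 K) :
    spt hw (endoT φ hφ h4 h6 P) = FA.Frob.mapHom τ hτ (spt hw' P) := by
  rcases T3_cases P with rfl | ⟨r, s, h, hP⟩
  · simp
  obtain ⟨h', e'⟩ := spt_some hw' hP
  have h2 : (endoT φ hφ h4 h6 P).1 = Affine.Point.some (algebraMap (ParR K) (ParF K) (φ r))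
      (algebraMap (ParR K) (ParF K) (φ s))
      (by simpa only [fracExt_algebraMap] using
        FA.Frob.nonsingular_mapHom _ (EG_map_fracExt φ hφ h4 h6) h) := by
    rw [endoT_some φ hφ h4 h6 hP]
    simp only [fracExt_algebraMap]
  obtain ⟨h'', e''⟩ := spt_some hw h2
  rw [e', e'', FA.Frob.mapHom_some]
  simp only [hev]

end spec

end FA.Switch.L3
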