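/-
The symmetries of `(c₄, c₆)` act on the generic `5`-torsion freely, and they act transitively on
the parameters with given `(c₄, c₆)`.
-/
import Fermat.Agent.Switch.Level3.Universal
import Mathlib.RingTheory.Polynomial.Cyclotomic.Roots
import Mathlib.Data.ZMod.Basic
import Mathlib.Algebra.Polynomial.Roots
import Mathlib.Tactic.ComputeDegree

set_option autoImplicit false
set_option linter.unusedSectionVars false

open WeierstrassCurve Matrix

namespace FA.Switch.L3

universe u

variable {K : Type u} [Field K] [CharZero K]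

instance fact_prime_three' : Fact (Nat.Prime 3) := ⟨Nat.prime_three⟩

lemma exists_roots [IsAlgClosed K] : ∃ s l : K, s ^ 2 = 3 ∧ 3 * l ^ 2 + 1 = 0 := by
  obtain ⟨s, hs⟩ := IsAlgClosed.exists_pow_nat_eq (3 : K) (n := 2) two_pos
  obtain ⟨l, hl⟩ := IsAlgClosed.exists_pow_nat_eq (-(1 / 3) : K) (n := 2) two_pos
  exact ⟨s, l, hs, by linear_combination 3 * hl⟩

/-- Auxiliary roots. -/
structure Roots (s l : K) : Prop where
  eq1 : s ^ 2 = 3
  eq2 : 3 * l ^ 2 + 1 = 0

variable (K) in
/-- The symmetries of `(c₄, c₆)`. -/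
def symM : Submonoid (Matrix (Fin 2) (Fin 2) K) where
  carrier := {g | g.det ≠ 0 ∧ ∀ w,
    hc4 (g.mulVec w 0) (g.mulVec w 1) = hc4 (w 0) (w 1) ∧
    hc6 (g.mulVec w 0) (g.mulVec w 1) = hc6 (w 0) (w 1)}
  one_mem' := ⟨by simp, fun w => by simp⟩
  mul_mem' := fun {g h} hg hh => ⟨by rw [det_mul]; exact mul_ne_zero hg.1 hh.1, fun w => by
    rw [← mulVec_mulVec]
    exact ⟨(hg.2 _).1.trans (hh.2 w).1, (hg.2 _).2.trans (hh.2 w).2⟩⟩

lemma inv_mem_symM {g : Matrix (Fin 2) (Fin 2) K} (hg : g ∈ symM K) : g⁻¹ ∈ symM K := by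
  have hu : IsUnit g.det := hg.1.isUnit
  refine ⟨?_, fun w => ?_⟩
  · intro h
    have := congrArg Matrix.det (mul_nonsing_inv g hu)
    rw [det_mul, h, mul_zero, det_one] at this
    exact zero_ne_one this
  · have h := hg.2 (g⁻¹.mulVec w)
    rw [mulVec_mulVec, mul_nonsing_inv g hu, one_mulVec] at h
    exact ⟨h.1.symm, h.2.symm⟩

lemma smul_one_mem_symM {c : K} (hc : c ^ 2 = 1) :
    c • (1 : Matrix (Fin 2) (Fin 2) K) ∈ symM K := by
  have hc0 : c ≠ 0 := fun h => by simp [h] at hc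
  refine ⟨by simp [det_smul, hc0], fun w => ?_⟩
  simp only [smul_mulVec, one_mulVec, Pi.smul_apply, smul_eq_mul, hc4_smul, hc6_smul,
    show c ^ 4 = (c ^ 2) ^ 2 by ring, show c ^ 6 = (c ^ 2) ^ 3 by ring, hc, one_pow, one_mul,
    and_self]

lemma diag_mem_symM {e : K} (he : e ^ 3 = 1) : !![1, 0; 0, e] ∈ symM K := by
  have he0 : e ≠ 0 := fun h => by simp [h] at he
  refine ⟨by simp [det_fin_two, he0], fun w => ?_⟩
  have h6 : e ^ 6 = 1 := by linear_combination (e ^ 3 + 1) * he
  simp [hc4, hc6, Matrix.mulVec, dotProduct, Fin.sum_univ_two, mul_pow, he, h6]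

lemma hesseS_mem {s l : K} (hr : Roots s l) : hesseS l ∈ symM K :=
  ⟨by rw [hesseS_det hr.eq2]; exact one_ne_zero, hesseS_invariant hr.eq2⟩

instance infinite_of_charZero' : Infinite K :=
  Infinite.of_injective ((↑) : ℕ → K) Nat.cast_injective

lemma linSubst_mul (g h : Matrix (Fin 2) (Fin 2) K) (p : ParR K) :
    linSubst (g * h) p = linSubst h (linSubst g p) :=
  MvPolynomial.funext fun w => by
    rw [eval_linSubst, eval_linSubst, eval_linSubst, mulVec_mulVec]

lemma linSubst_one (p : ParR K) : linSubst (1 : Matrix (Fin 2) (Fin 2) K) p = p :=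
  MvPolynomial.funext fun w => by rw [eval_linSubst, one_mulVec]

lemma linSubst_injective (g : symM K) : Function.Injective (linSubst (g : Matrix (Fin 2) (Fin 2) K)) :=
  Function.LeftInverse.injective (g := linSubst (g : Matrix (Fin 2) (Fin 2) K)⁻¹) fun p => by
    rw [← linSubst_mul, mul_nonsing_inv _ g.2.1.isUnit, linSubst_one]

lemma linSubst_polyC4 (g : symM K) :
    linSubst (g : Matrix (Fin 2) (Fin 2) K) (polyC4 K) = polyC4 K :=
  MvPolynomial.funext fun w => by
    rw [eval_linSubst, eval_polyC4, eval_polyC4, (g.2.2 w).1]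

lemma linSubst_polyC6 (g : symM K) :
    linSubst (g : Matrix (Fin 2) (Fin 2) K) (polyC6 K) = polyC6 K :=
  MvPolynomial.funext fun w => by
    rw [eval_linSubst, eval_polyC6, eval_polyC6, (g.2.2 w).2]

/-- The action of a symmetry on the generic torsion. -/
noncomputable def gAct (g : symM K) : T3 K →+ T3 K :=
  endoT (linSubst (g : Matrix (Fin 2) (Fin 2) K)).toRingHom (linSubst_injective g)
    (linSubst_polyC4 g) (linSubst_polyC6 g)

/-- Its action on fractions. -/
noncomputable def gField (g : symM K) : ParF K →+* ParF K :=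
  fracExt (linSubst (g : Matrix (Fin 2) (Fin 2) K)).toRingHom (linSubst_injective g)

lemma gField_algebraMap (g : symM K) (r : ParR K) :
    gField g (algebraMap (ParR K) (ParF K) r) =
      algebraMap _ _ (linSubst (g : Matrix (Fin 2) (Fin 2) K) r) :=
  fracExt_algebraMap _ _ r

lemma gField_cF (g : symM K) (c : K) : gField g (cF c) = cF c := by
  show gField g (algebraMap (ParR K) (ParF K) (MvPolynomial.C c)) = _
  rw [gField_algebraMap]
  simp [linSubst]

lemma gAct_some (g : symM K) {P : T3 K} {x y : ParF K} {h : (EG K).toAffine.Nonsingular x y}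
    (hP : P.1 = .some x y h) : ∃ h', (gAct g P).1 = .some (gField g x) (gField g y) h' :=
  ⟨_, endoT_some _ _ _ _ hP⟩

lemma gAct_mul (g h : symM K) : gAct (g * h) = (gAct h).comp (gAct g) := by
  refine AddMonoidHom.ext fun P => ?_
  rcases T3_cases P with rfl | ⟨r, s, hh, hP⟩
  · simp
  · obtain ⟨_, e1⟩ := gAct_some (g * h) hP
    obtain ⟨_, e2⟩ := gAct_some g hP
    obtain ⟨_, e3⟩ := gAct_some h e2
    refine Subtype.ext ?_
    rw [AddMonoidHom.comp_apply, e1, e3]
    simp only [gField_algebraMap, Submonoid.coe_mul, linSubst_mul]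

lemma gAct_one : gAct (1 : symM K) = AddMonoidHom.id _ := by
  refine AddMonoidHom.ext fun P => ?_
  rcases T3_cases P with rfl | ⟨r, s, hh, hP⟩
  · simp
  · obtain ⟨_, e1⟩ := gAct_some (1 : symM K) hP
    refine Subtype.ext ?_
    rw [AddMonoidHom.id_apply, e1, hP]
    simp only [gField_algebraMap, Submonoid.coe_one, linSubst_one]

section points

variable {s l : K} (hr : Roots s l)

include hr in
lemma cF_sq : (cF s : ParF K) ^ 2 = 3 := by rw [← map_pow, hr.eq1, map_ofNat]

/-- The basic point of order `3`. -/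
noncomputable def basicPt : T3 K :=
  ⟨.some _ _ (nonsingular_pt (cF_sq hr) EG_eq), mem_T3 (three_nsmul_pt (cF_sq hr) EG_eq)⟩

lemma basicPt_val :
    (basicPt hr).1 = .some (9 * xF 0 ^ 2) (12 * cF s * (xF 0 ^ 3 - 27 * xF 1 ^ 3))
      (nonsingular_pt (cF_sq hr) EG_eq) := rfl

lemma basicPt_ne_zero : basicPt hr ≠ 0 := fun h =>
  Affine.Point.some_ne_zero _ (congrArg Subtype.val h)

include hr in
/-- A symmetry fixing the basic point is `diag(1, ζ)`. -/
lemma diag_of_fix (g : symM K) (h : gAct g (basicPt hr) = basicPt hr) :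
    (g : Matrix (Fin 2) (Fin 2) K) 0 0 = 1 ∧ (g : Matrix (Fin 2) (Fin 2) K) 0 1 = 0 ∧
      (g : Matrix (Fin 2) (Fin 2) K) 1 0 = 0 ∧ (g : Matrix (Fin 2) (Fin 2) K) 1 1 ^ 3 = 1 := by
  obtain ⟨h', e⟩ := gAct_some g (basicPt_val hr)
  rw [h, basicPt_val] at e
  simp only [Affine.Point.some.injEq, map_mul, map_pow, map_sub, map_ofNat, gField_cF] at e
  obtain ⟨e1, e2⟩ := e
  have hs : (12 : ParF K) * cF s ≠ 0 := mul_ne_zero (by norm_num) fun h0 => by
    have := cF_sq hr
    rw [h0] at this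
    norm_num at this
  have e1' := mul_left_cancel₀ (by norm_num : (9 : ParF K) ≠ 0) e1
  have e2' := mul_left_cancel₀ hs e2
  rw [gField_algebraMap] at e1' e2'
  rw [gField_algebraMap, ← map_ofNat (algebraMap (ParR K) (ParF K)) 27] at e2'
  simp only [← map_pow (algebraMap (ParR K) (ParF K)), ← map_mul (algebraMap (ParR K) (ParF K)),
    ← map_sub (algebraMap (ParR K) (ParF K))] at e2'
  rw [← map_pow, ← map_pow] at e1'
  have fU := IsFractionRing.injective (ParR K) (ParF K) e1'
  have fV := IsFractionRing.injective (ParR K) (ParF K) e2'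
  have a1 := congrArg (MvPolynomial.eval ![0, 1]) fU
  have a2 := congrArg (MvPolynomial.eval ![1, 0]) fU
  have b1 := congrArg (MvPolynomial.eval ![0, 1]) fV
  have b2 := congrArg (MvPolynomial.eval ![1, 0]) fV
  have b3 := congrArg (MvPolynomial.eval ![1, 1]) fV
  simp [eval_linSubst, Matrix.mulVec, dotProduct, Fin.sum_univ_two, map_ofNat] at a1 a2 b1 b2 b3
  set g00 := (g : Matrix (Fin 2) (Fin 2) K) 0 0
  set g01 := (g : Matrix (Fin 2) (Fin 2) K) 0 1
  set g10 := (g : Matrix (Fin 2) (Fin 2) K) 1 0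
  set g11 := (g : Matrix (Fin 2) (Fin 2) K) 1 1
  have h01 : g01 = 0 := eq_zero_of_pow_eq_zero a1.symm
  have h11 : g11 ^ 3 = 1 := by
    rw [h01] at b1; linear_combination b1 / 27
  have h11' : g11 ≠ 0 := fun h0 => by simp [h0] at h11
  have hp : g10 * (g10 + g11) = 0 := by
    refine (mul_eq_zero.mp (?_ : (81 * g11) * _ = 0)).resolve_left
      (mul_ne_zero (by norm_num) h11')
    rw [h01] at b1 b3
    linear_combination b3 - b1 - b2
  rcases mul_eq_zero.mp hp with h10 | h10
  · refine ⟨?_, h01, h10, h11⟩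
    rw [h10] at b2
    rcases eq_or_eq_neg_of_sq_eq_sq g00 1 (by linear_combination -a2) with h | h
    · exact h
    · rw [h] at b2; norm_num at b2
  · exfalso
    have e : g10 = -g11 := eq_neg_of_add_eq_zero_left h10
    rw [e] at b2
    rcases eq_or_eq_neg_of_sq_eq_sq g00 1 (by linear_combination -a2) with h | h <;>
      rw [h] at b2 <;> ring_nf at b2 <;> rw [h11] at b2 <;> norm_num at b2

include hr in
lemma negS_mem : (-1 : K) • hesseS l ∈ symM K := by
  rw [show (-1 : K) • hesseS l = ((-1 : K) • 1) * hesseS l by rw [Matrix.smul_mul, one_mul]]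
  exact mul_mem (smul_one_mem_symM (by norm_num)) (hesseS_mem hr)

/-- The involution as a symmetry. -/
noncomputable def sS : symM K := ⟨hesseS l, hesseS_mem hr⟩

/-- The inverse of the involution as a symmetry. -/
noncomputable def sS' : symM K := ⟨(-1 : K) • hesseS l, negS_mem hr⟩

lemma sS_mul_sS' : sS hr * sS' hr = 1 := Subtype.ext (by
  show hesseS l * ((-1 : K) • hesseS l) = 1
  rw [Matrix.mul_smul, hesseS_sq hr.eq2, smul_smul]
  norm_num)

/-- The second basic point. -/
noncomputable def basicPt₂ : T3 K := gAct (sS hr) (basicPt hr)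

include hr in
/-- A symmetry fixing both basic points is trivial. -/
lemma scalar_of_fix (g : symM K) (h₁ : gAct g (basicPt hr) = basicPt hr)
    (h₂ : gAct g (basicPt₂ hr) = basicPt₂ hr) :
    (g : Matrix (Fin 2) (Fin 2) K) = 1 := by
  obtain ⟨h00, h01, h10, -⟩ := diag_of_fix hr g h₁
  have h3 : gAct (sS hr * g * sS' hr) (basicPt hr) = basicPt hr := by
    rw [gAct_mul, gAct_mul, AddMonoidHom.comp_apply, AddMonoidHom.comp_apply]
    show gAct (sS' hr) (gAct g (basicPt₂ hr)) = basicPt hr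
    rw [h₂, basicPt₂, ← AddMonoidHom.comp_apply, ← gAct_mul, sS_mul_sS', gAct_one,
      AddMonoidHom.id_apply]
  have h4 := (diag_of_fix hr _ h3).2.1
  simp only [Submonoid.coe_mul, sS, sS', hesseS, Matrix.mul_apply, Fin.sum_univ_two,
    Matrix.smul_apply, smul_eq_mul, h01, h10, h00] at h4
  simp at h4
  have hl : l ≠ 0 := fun h0 => by
    have := hr.eq2
    rw [h0] at this
    norm_num at this
  have h11 : (g : Matrix (Fin 2) (Fin 2) K) 1 1 = 1 := by
    refine mul_left_cancel₀ (mul_ne_zero (pow_ne_zero 2 hl) (by norm_num : (6 : K) ≠ 0)) ?_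
    linear_combination h4
  ext i j
  fin_cases i <;> fin_cases j <;> simp [h00, h01, h10, h11]

/-- Multiples of a torsion point. -/
noncomputable def zm (P : T3 K) : ZMod 3 →+ T3 K :=
  ZMod.lift 3 ⟨zmultiplesHom _ P, by
    rw [zmultiplesHom_apply, natCast_zsmul]; exact Subtype.ext (nsmul_T3 P)⟩

lemma zm_one (P : T3 K) : zm P 1 = P := by
  rw [← Nat.cast_one, ← Int.cast_natCast, zm, ZMod.lift_coe]
  simp

lemma zm_eq (P : T3 K) (i : ZMod 3) : zm P i = i.val • P := by
  conv_lhs => rw [← ZMod.natCast_zmod_val i, ← nsmul_one, map_nsmul, zm_one]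

lemma zm_mul (P : T3 K) (i j : ZMod 3) : zm P (i * j) = i.val • zm P j := by
  rw [← map_nsmul, nsmul_eq_mul, ZMod.natCast_zmod_val]

/-- The coordinates in the two basic points. -/
noncomputable def comb : ZMod 3 × ZMod 3 →+ T3 K :=
  (zm (basicPt hr)).coprod (zm (basicPt₂ hr))

/-- `g` has the matrix `m` (columns are the images of the basic points). -/
def HasMat (g : symM K) (m : ZMod 3 × ZMod 3 × ZMod 3 × ZMod 3) : Prop :=
  gAct g (basicPt hr) = comb hr (m.1, m.2.2.1) ∧ gAct g (basicPt₂ hr) = comb hr (m.2.1, m.2.2.2)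

/-- Product of matrices. -/
def mul4 (m n : ZMod 3 × ZMod 3 × ZMod 3 × ZMod 3) : ZMod 3 × ZMod 3 × ZMod 3 × ZMod 3 :=
  (m.1 * n.1 + m.2.1 * n.2.2.1, m.1 * n.2.1 + m.2.1 * n.2.2.2,
    m.2.2.1 * n.1 + m.2.2.2 * n.2.2.1, m.2.2.1 * n.2.1 + m.2.2.2 * n.2.2.2)

lemma comb_basis : comb hr (1, 0) = basicPt hr ∧ comb hr (0, 1) = basicPt₂ hr := by
  simp [comb, zm_one]

lemma HasMat.apply {g : symM K} {m : ZMod 3 × ZMod 3 × ZMod 3 × ZMod 3} (h : HasMat hr g m)
    (i j : ZMod 3) :
    gAct g (comb hr (i, j)) = comb hr (m.1 * i + m.2.1 * j, m.2.2.1 * i + m.2.2.2 * j) := by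
  have e : comb hr (i, j) = i.val • basicPt hr + j.val • basicPt₂ hr := by
    simp [comb, zm_eq]
  rw [e, map_add, map_nsmul, map_nsmul, h.1, h.2, ← map_nsmul, ← map_nsmul, ← map_add]
  congr 1
  simp only [Prod.smul_mk, Prod.mk_add_mk, nsmul_eq_mul, ZMod.natCast_zmod_val, Prod.mk.injEq]
  constructor <;> ring

lemma HasMat.one : HasMat hr (1 : symM K) (1, 0, 0, 1) := by
  simp only [HasMat, gAct_one, AddMonoidHom.id_apply]
  exact ⟨(comb_basis hr).1.symm, (comb_basis hr).2.symm⟩

lemma HasMat.mul {g h : symM K} {m n : ZMod 3 × ZMod 3 × ZMod 3 × ZMod 3}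
    (hg : HasMat hr g m) (hh : HasMat hr h n) : HasMat hr (g * h) (mul4 n m) := by
  constructor
  · rw [gAct_mul, AddMonoidHom.comp_apply, hg.1, hh.apply]
    rfl
  · rw [gAct_mul, AddMonoidHom.comp_apply, hg.2, hh.apply]
    rfl

lemma hasMat_S : HasMat hr (sS hr) (0, 2, 1, 0) := by
  refine ⟨(comb_basis hr).2.symm, ?_⟩
  show gAct (sS hr) (gAct (sS hr) (basicPt hr)) = comb hr ((2 : ZMod 3), (0 : ZMod 3))
  have hss : sS hr * sS hr = ⟨(-1 : K) • 1, smul_one_mem_symM (by norm_num)⟩ :=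
    Subtype.ext (hesseS_sq hr.eq2)
  rw [← AddMonoidHom.comp_apply, ← gAct_mul, hss]
  obtain ⟨h', e⟩ := gAct_some ⟨(-1 : K) • 1, smul_one_mem_symM (by norm_num)⟩ (basicPt_val hr)
  have hneg : comb hr ((2 : ZMod 3), (0 : ZMod 3)) = -basicPt hr := by
    rw [show ((2 : ZMod 3), (0 : ZMod 3)) = -((1 : ZMod 3), (0 : ZMod 3)) from rfl, map_neg,
      (comb_basis hr).1]
  rw [hneg]
  refine Subtype.ext (e.trans ?_)
  have hx : ∀ i : Fin 2,
      gField (⟨(-1 : K) • 1, smul_one_mem_symM (by norm_num)⟩ : symM K) (xF i) = -xF i := by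
    intro i
    rw [gField_algebraMap, ← map_neg]
    congr 1
    fin_cases i <;> simp [linSubst]
  show _ = -(basicPt hr).1
  rw [basicPt_val, Affine.Point.neg_some]
  simp only [Affine.Point.some.injEq, map_mul, map_sub, map_pow, map_ofNat, hx, gField_cF,
    Affine.negY, EG_eq, shortKl, zero_mul, sub_zero]
  constructor <;> ring

/-- The symmetries `diag(1, ε)`. -/
def sT {ε : K} (hε : ε ^ 3 = 1) : symM K := ⟨!![1, 0; 0, ε], diag_mem_symM hε⟩

lemma gAct_sT {ε : K} (hε : ε ^ 3 = 1) : gAct (sT hε) (basicPt hr) = basicPt hr := by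
  obtain ⟨h', e⟩ := gAct_some (sT hε) (basicPt_val hr)
  have hx0 : gField (sT hε) (xF 0) = xF 0 := by
    rw [gField_algebraMap]; congr 1; simp [sT, linSubst]
  have hx1 : gField (sT hε) (xF 1) ^ 3 = xF 1 ^ 3 := by
    rw [gField_algebraMap, ← map_pow, ← map_pow]
    congr 1
    rw [map_pow]
    simp [sT, linSubst, mul_pow, ← map_pow MvPolynomial.C, hε]
  refine Subtype.ext (e.trans ?_)
  rw [basicPt_val]
  simp only [Affine.Point.some.injEq, map_mul, map_sub, map_pow, map_ofNat, hx0, hx1, gField_cF,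
    and_self]

lemma sT_ne {ε : K} (hε : ε ^ 3 = 1) (h1 : ε ≠ 1) :
    gAct (sT hε) (basicPt₂ hr) ≠ basicPt₂ hr := fun h => by
  have b := congrFun (congrFun (scalar_of_fix hr (sT hε) (gAct_sT hr hε) h) 1) 1
  simp [sT] at b
  exact h1 b

variable [IsAlgClosed K]

omit hr in
lemma exists_third_root : ∃ ε : K, ε ^ 3 = 1 ∧ ε ≠ 1 := by
  obtain ⟨ε, hε⟩ := IsAlgClosed.exists_root (Polynomial.cyclotomic 3 K)
    (by rw [Polynomial.degree_cyclotomic]; decide)
  have h := (Polynomial.isRoot_cyclotomic_iff).mp hε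
  exact ⟨ε, h.pow_eq_one, h.ne_one (by norm_num)⟩

lemma comb_injective : Function.Injective (comb hr) := by
  rw [injective_iff_map_eq_zero]
  rintro ⟨i, j⟩ h
  have hzm : Function.Injective (zm (basicPt hr)) := by
    rw [injective_iff_map_eq_zero]
    intro i hi
    by_contra hne
    refine basicPt_ne_zero hr ?_
    have h' := zm_mul (basicPt hr) i⁻¹ i
    rwa [hi, inv_mul_cancel₀ hne, zm_one, nsmul_zero] at h'
  simp only [comb, AddMonoidHom.coprod_apply] at h
  by_cases hj : j = 0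
  · subst hj
    rw [map_zero, add_zero, ← map_zero (zm (basicPt hr))] at h
    exact Prod.ext (hzm h) rfl
  · exfalso
    have h' : zm (basicPt hr) (j⁻¹ * i) + basicPt₂ hr = 0 := by
      rw [← zm_one (basicPt₂ hr), ← inv_mul_cancel₀ hj, zm_mul, zm_mul, ← nsmul_add, h, nsmul_zero]
    obtain ⟨ε, hε, hε1⟩ := exists_third_root (K := K)
    refine sT_ne hr hε hε1 ?_
    rw [eq_neg_of_add_eq_zero_right h', map_neg, zm_eq, map_nsmul, gAct_sT]

variable [DecidableEq K]

section card

omit hr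

lemma sat_one : Sat (fun _ : Fin 2 => (1 : K)) (hc4 1 1) (hc6 1 1) :=
  ⟨rfl, rfl, fun e => by
    have := hesse_syzygy (1 : K) 1
    rw [e, sub_self, hD] at this
    norm_num at this⟩

lemma natCard_shortKl {a b : K} (h : a ^ 3 ≠ b ^ 2) :
    Nat.card {P : (shortKl a b).toAffine.Point // (3 : ℕ) • P = 0} = 9 := by
  have := shortKl_isElliptic h
  rw [FA.EC.natCard_nsmul_eq_zero _ (Nat.cast_ne_zero.mpr (by norm_num : (3 : ℕ) ≠ 0))]
  norm_num

end card

lemma spt_comb_bijective {w : Fin 2 → K} {a b : K} (hw : Sat w a b) :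
    Function.Bijective (fun v => (⟨spt hw (comb hr v), three_nsmul_spt hw _⟩ :
      {P : (shortKl a b).toAffine.Point // (3 : ℕ) • P = 0})) := by
  have : Finite {P : (shortKl a b).toAffine.Point // (3 : ℕ) • P = 0} :=
    Nat.finite_of_card_ne_zero (by rw [natCard_shortKl hw.disc]; norm_num)
  rw [Nat.bijective_iff_injective_and_card]
  refine ⟨fun v v' h => comb_injective hr (spt_injective hw (congrArg Subtype.val h)), ?_⟩
  rw [natCard_shortKl hw.disc, Nat.card_prod, Nat.card_zmod]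

lemma comb_surjective : Function.Surjective (comb hr) := fun P => by
  obtain ⟨v, hv⟩ := (spt_comb_bijective hr (sat_one (K := K))).2 ⟨spt sat_one P, three_nsmul_spt _ _⟩
  exact ⟨v, spt_injective sat_one (congrArg Subtype.val hv)⟩

lemma hasMat_exists (g : symM K) : ∃ m, HasMat hr g m := by
  obtain ⟨⟨a, c⟩, h1⟩ := comb_surjective hr (gAct g (basicPt hr))
  obtain ⟨⟨b, d⟩, h2⟩ := comb_surjective hr (gAct g (basicPt₂ hr))
  exact ⟨(a, b, c, d), h1.symm, h2.symm⟩

lemma HasMat.unique {g : symM K} {m n : ZMod 3 × ZMod 3 × ZMod 3 × ZMod 3}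
    (h : HasMat hr g m) (h' : HasMat hr g n) : m = n := by
  have e1 := comb_injective hr (h.1.symm.trans h'.1)
  have e2 := comb_injective hr (h.2.symm.trans h'.2)
  simp only [Prod.mk.injEq] at e1 e2
  exact Prod.ext e1.1 (Prod.ext e2.1 (Prod.ext e1.2 e2.2))

omit hr in
/-- The generators' matrices. -/
def genM (b : Bool) : ZMod 3 × ZMod 3 × ZMod 3 × ZMod 3 :=
  if b then (0, 2, 1, 0) else (1, 1, 0, 1)

omit hr in
/-- The matrix of a word. -/
def mM : List Bool → ZMod 3 × ZMod 3 × ZMod 3 × ZMod 3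
  | [] => (1, 0, 0, 1)
  | b :: l => mul4 (mM l) (genM b)

lemma exists_U : ∃ U : symM K, HasMat hr U (1, 1, 0, 1) := by
  obtain ⟨ε, hε, hε1⟩ := exists_third_root (K := K)
  obtain ⟨⟨a, b, c, d⟩, hm⟩ := hasMat_exists hr (sT hε)
  have hac : a = 1 ∧ c = 0 := by
    have := comb_injective hr (hm.1.symm.trans ((gAct_sT hr hε).trans (comb_basis hr).1.symm))
    simpa using this
  obtain ⟨rfl, rfl⟩ := hac
  have hpow : ∀ n : ℕ, ∃ x, HasMat hr (sT hε ^ n) (1, x, 0, d ^ n) ∧ (d = 1 → x = n * b) := by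
    intro n
    induction n with
    | zero => exact ⟨0, by simpa using HasMat.one hr, fun _ => by simp⟩
    | succ n ih =>
      obtain ⟨x, hx, hx'⟩ := ih
      refine ⟨b + d * x, ?_, fun hd => by simp [hx' hd, hd]; ring⟩
      have h := hm.mul hr hx
      rw [← pow_succ'] at h
      simpa [mul4, pow_succ, add_comm, mul_comm] using h
  have hd : d = 1 := by
    obtain ⟨x, hx, -⟩ := hpow 3
    have h5 : sT hε ^ 3 = 1 := Subtype.ext (by
      rw [SubmonoidClass.coe_pow]
      show !![(1 : K), 0; 0, ε] ^ 3 = 1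
      rw [pow_succ, pow_succ, pow_one]
      ext i j
      fin_cases i <;> fin_cases j <;> simp [Matrix.mul_apply, Fin.sum_univ_two]
      linear_combination hε)
    rw [h5] at hx
    have e := (HasMat.one hr).unique hr hx
    simp only [Prod.mk.injEq] at e
    have h5' : ∀ d : ZMod 3, d ^ 3 = d := by decide
    rw [← h5' d]
    exact e.2.2.2.symm
  have hb : b ≠ 0 := fun hb => sT_ne hr hε hε1 (by
    rw [hm.2, hb, hd]; exact (comb_basis hr).2)
  obtain ⟨x, hx, hx'⟩ := hpow b⁻¹.val
  rw [hx' hd, ZMod.natCast_zmod_val, inv_mul_cancel₀ hb, hd, one_pow] at hx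
  exact ⟨_, hx⟩

/-- The unit translation symmetry. -/
noncomputable def sU : symM K := (exists_U hr).choose

/-- The generators. -/
noncomputable def gen (b : Bool) : symM K := if b then sS hr else sU hr

/-- The symmetry of a word. -/
noncomputable def gM : List Bool → symM K
  | [] => 1
  | b :: l => gen hr b * gM l

lemma hasMat_gM (l : List Bool) : HasMat hr (gM hr l) (mM l) := by
  induction l with
  | nil => exact HasMat.one hr
  | cons b l ih =>
    refine HasMat.mul hr ?_ ih
    cases b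
    · exact (exists_U hr).choose_spec
    · exact hasMat_S hr

include hr in
/-- A symmetry fixing a parameter is trivial. -/
theorem eq_one_of_fix {w : Fin 2 → K} {a b : K} (hw : Sat w a b) (g : symM K)
    (hg : (g : Matrix (Fin 2) (Fin 2) K).mulVec w = w) : g = 1 := by
  have key : ∀ P, gAct g P = P := fun P => spt_injective hw (by
    rw [gAct, spt_natural hw hw _ _ _ _ (RingHom.id K) (WeierstrassCurve.map_id _)
      (fun p => by show MvPolynomial.eval w (linSubst _ p) = _; rw [eval_linSubst, hg]; rfl)]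
    rcases spt hw P with _ | ⟨x, y, h⟩ <;> rfl)
  exact Subtype.ext (scalar_of_fix hr g (key _) (key _))

lemma scalar_hasMat {c : K} (hc : c ^ 2 = 1) :
    ∃ m : ZMod 3, (m = 1 ∨ m = 2) ∧
      HasMat hr ⟨c • 1, smul_one_mem_symM hc⟩ (m, 0, 0, m) := by
  set C : symM K := ⟨c • 1, smul_one_mem_symM hc⟩
  have hcomm : C * sS hr = sS hr * C := Subtype.ext (by
    show (c • 1 : Matrix (Fin 2) (Fin 2) K) * hesseS l = hesseS l * (c • 1)
    simp [Matrix.smul_mul, Matrix.mul_smul])
  have key : ∀ s : ZMod 3, gAct C (basicPt hr) = comb hr (s, 0) →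
      HasMat hr C (s, 0, 0, s) := fun s hs => by
    refine ⟨hs, ?_⟩
    show gAct C (gAct (sS hr) (basicPt hr)) = _
    rw [← AddMonoidHom.comp_apply, ← gAct_mul, ← hcomm, gAct_mul, AddMonoidHom.comp_apply, hs,
      (hasMat_S hr).apply]
    simp
  obtain ⟨h', e⟩ := gAct_some C (basicPt_val hr)
  have hx : ∀ i : Fin 2, gField C (xF i) = cF c * xF i := by
    intro i
    rw [gField_algebraMap]
    show _ = algebraMap (ParR K) (ParF K) (MvPolynomial.C c) * _
    rw [← map_mul]
    congr 1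
    fin_cases i <;> simp [C, linSubst]
  rcases sq_eq_one_iff.mp hc with h5 | h5
  · refine ⟨1, .inl rfl, key 1 ?_⟩
    rw [(comb_basis hr).1]
    refine Subtype.ext (e.trans ?_)
    rw [basicPt_val]
    simp only [Affine.Point.some.injEq, map_mul, map_sub, map_pow, map_ofNat, hx, gField_cF, h5,
      map_one, one_mul, and_self]
  · refine ⟨2, .inr rfl, key 2 ?_⟩
    rw [show ((2 : ZMod 3), (0 : ZMod 3)) = -((1 : ZMod 3), (0 : ZMod 3)) from rfl, map_neg,
      (comb_basis hr).1]
    refine Subtype.ext (e.trans ?_)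
    show _ = -(basicPt hr).1
    rw [basicPt_val, Affine.Point.neg_some]
    simp only [Affine.Point.some.injEq, map_mul, map_sub, map_pow, map_ofNat, hx, gField_cF, h5,
      map_neg, map_one, Affine.negY, EG_eq, shortKl, zero_mul, sub_zero]
    constructor <;> ring

end points

/-- Twelve words representing the symmetries up to sign. -/
def tetWords : List (List Bool) :=
  [[],
   [false],
   [true],
   [false,false],
   [true,false],
   [false,true],
   [true,false,false],
   [false,true,false],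
   [false,false,true],
   [true,false,true],
   [false,true,false,false],
   [false,false,true,false]]

/-- Their matrices. -/
def tetVals : List (ZMod 3 × ZMod 3 × ZMod 3 × ZMod 3) :=
  [(1, 0, 0, 1),
   (1, 1, 0, 1),
   (0, 2, 1, 0),
   (1, 2, 0, 1),
   (1, 2, 1, 0),
   (0, 2, 1, 1),
   (2, 2, 1, 0),
   (1, 0, 1, 1),
   (0, 2, 1, 2),
   (2, 0, 1, 2),
   (2, 1, 1, 1),
   (1, 1, 1, 2)]

/-- The negative of a matrix. -/
def neg4 (m : ZMod 3 × ZMod 3 × ZMod 3 × ZMod 3) : ZMod 3 × ZMod 3 × ZMod 3 × ZMod 3 :=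
  (-m.1, -m.2.1, -m.2.2.1, -m.2.2.2)

lemma tetWords_vals : tetWords.map mM = tetVals := by decide +kernel

lemma tetVals_pairwise : tetVals.Pairwise fun m n => m ≠ n ∧ m ≠ neg4 n := by decide +kernel

lemma tetVals_length : tetVals.length = 12 := by decide +kernel

variable [IsAlgClosed K] [DecidableEq K]

/-- The polynomial whose roots are the ratios of the parameters with given invariants. -/
noncomputable def ratioPoly (d e : K) : Polynomial K :=
  hc4 (1 : Polynomial K) Polynomial.X ^ 3 * Polynomial.C d -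
    Polynomial.C e * hD (1 : Polynomial K) Polynomial.X ^ 3

lemma ratioPoly_eval (d e t : K) :
    (ratioPoly d e).eval t = hc4 1 t ^ 3 * d - e * hD 1 t ^ 3 := by
  have h4 := map_hc4 (Polynomial.evalRingHom t) (1 : Polynomial K) Polynomial.X
  have hF := map_hD (Polynomial.evalRingHom t) (1 : Polynomial K) Polynomial.X
  simp only [Polynomial.coe_evalRingHom, Polynomial.eval_one, Polynomial.eval_X] at h4 hF
  simp [ratioPoly, h4, hF]

lemma ratioPoly_natDegree (d e : K) (hd : d ≠ 0) : (ratioPoly d e).natDegree ≤ 12 := by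
  simp only [ratioPoly, hc4, hD, one_pow, one_mul]
  compute_degree

lemma ratioPoly_coeff_zero (d e : K) : (ratioPoly d e).coeff 0 = d := by
  rw [Polynomial.coeff_zero_eq_eval_zero, ratioPoly_eval]
  simp [hc4, hD]

lemma Sat.fst_ne_zero_of {w : Fin 2 → K} {a b : K} (hw : Sat w a b) (ha : a ≠ 0) : w 0 ≠ 0 :=
  fun h => ha (by rw [← hw.eq4, h, hc4, zero_mul])

lemma Sat.smul_matrix {w : Fin 2 → K} {a b : K} (hw : Sat w a b) (g : symM K) :
    Sat ((g : Matrix (Fin 2) (Fin 2) K).mulVec w) a b :=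
  ⟨(g.2.2 w).1.trans hw.eq4, (g.2.2 w).2.trans hw.eq6, hw.disc⟩

/-- Proportional parameters differ by a scalar symmetry. -/
lemma scalar_of_proportional {v v' : Fin 2 → K} {a b : K} (ha : a ≠ 0) (hb : b ≠ 0)
    (hv : Sat v a b) (hv' : Sat v' a b) (h : v' 1 / v' 0 = v 1 / v 0) :
    ∃ c : K, c ^ 2 = 1 ∧ v' = c • v := by
  have h0 := hv.fst_ne_zero_of ha
  have h0' := hv'.fst_ne_zero_of ha
  rw [div_eq_div_iff h0' h0] at h
  have e0 : v' 0 = v' 0 / v 0 * v 0 := (div_mul_cancel₀ _ h0).symm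
  have e1 : v' 1 = v' 0 / v 0 * v 1 := by field_simp; linear_combination h
  refine ⟨v' 0 / v 0, ?_, funext fun i => by fin_cases i <;> simp [← e0, ← e1]⟩
  have h4 := hv'.eq4
  have h6 := hv'.eq6
  rw [e0, e1, hc4_smul, hv.eq4, mul_eq_right₀ ha] at h4
  rw [e0, e1, hc6_smul, hv.eq6, mul_eq_right₀ hb] at h6
  have : (v' 0 / v 0) ^ 6 = (v' 0 / v 0) ^ 4 * (v' 0 / v 0) ^ 2 := by ring
  rw [h4, h6, one_mul] at this
  exact this.symm

/-- The symmetries act transitively on the parameters with given invariants. -/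
theorem exists_sym {w w' : Fin 2 → K} {a b : K} (ha : a ≠ 0) (hb : b ≠ 0) (hw : Sat w a b)
    (hw' : Sat w' a b) : ∃ g : symM K, (g : Matrix (Fin 2) (Fin 2) K).mulVec w = w' := by
  obtain ⟨η, δ, hη, hδ⟩ := exists_roots (K := K)
  have hr : Roots η δ := ⟨hη, hδ⟩
  have hlen : tetWords.length = 12 := by
    rw [← List.length_map mM, tetWords_vals, tetVals_length]
  let g : Fin 12 → symM K := fun i => gM hr (tetWords[i.val]'(by omega))
  let r : (Fin 2 → K) → K := fun v => v 1 / v 0
  let t : Fin 12 → K := fun i => r ((g i : Matrix (Fin 2) (Fin 2) K).mulVec w)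
  have hne : ∀ i j : Fin 12, i < j → t i ≠ t j := by
    intro i j hij htt
    obtain ⟨c, hc, hce⟩ := scalar_of_proportional ha hb (hw.smul_matrix (g i))
      (hw.smul_matrix (g j)) htt.symm
    set C : symM K := ⟨c • 1, smul_one_mem_symM hc⟩
    obtain ⟨s, hs, hC⟩ := scalar_hasMat hr hc
    have hu : IsUnit ((C * g i : symM K) : Matrix (Fin 2) (Fin 2) K).det := (C * g i).2.1.isUnit
    have heq : g j = C * g i := by
      have h1 := eq_one_of_fix hr hw
        (⟨_, inv_mem_symM (C * g i).2⟩ * g j) (by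
          rw [Submonoid.coe_mul, ← mulVec_mulVec, hce]
          show ((C * g i : symM K) : Matrix (Fin 2) (Fin 2) K)⁻¹.mulVec _ = w
          have : c • (g i : Matrix (Fin 2) (Fin 2) K).mulVec w =
              ((C * g i : symM K) : Matrix (Fin 2) (Fin 2) K).mulVec w := by
            simp [C, smul_mulVec]
          rw [this, mulVec_mulVec, nonsing_inv_mul _ hu, one_mulVec])
      refine Subtype.ext ?_
      have h2 := congrArg
        (fun m : symM K => ((C * g i : symM K) : Matrix (Fin 2) (Fin 2) K) *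
          (m : Matrix (Fin 2) (Fin 2) K)) h1
      simp only [Submonoid.coe_mul, Submonoid.coe_one, mul_one] at h2 ⊢
      rwa [← mul_assoc, mul_nonsing_inv _ (by simpa using hu), one_mul] at h2
    have hmi := hasMat_gM hr (tetWords[i.val]'(by omega))
    have hmj := hasMat_gM hr (tetWords[j.val]'(by omega))
    have hmm := HasMat.mul hr hC hmi
    change HasMat hr (g j) _ at hmj
    rw [heq] at hmj
    have e := hmj.unique hr hmm
    have hp := List.pairwise_iff_getElem.mp tetVals_pairwise i.val j.val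
      (by rw [tetVals_length]; exact i.2) (by rw [tetVals_length]; exact j.2) hij
    simp only [← tetWords_vals, List.getElem_map, e] at hp
    rcases hs with rfl | rfl
    · exact hp.1 (by simp [mul4])
    · refine hp.2 ?_
      have h4 : (2 : ZMod 3) = -1 := rfl
      simp [mul4, neg4, h4]
  have hinj : Function.Injective t := fun i j h => by
    rcases lt_trichotomy i j with h' | h' | h'
    · exact absurd h (hne i j h')
    · exact h'
    · exact absurd h.symm (hne j i h')
  set F5 := hD (w 0) (w 1) ^ 3 with hF5def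
  have hF5 : F5 ≠ 0 := pow_ne_zero 3 hw.hD_ne_zero
  have hroot : ∀ v, Sat v a b → (ratioPoly F5 (a ^ 3)).IsRoot (r v) := by
    intro v hv
    rw [Polynomial.IsRoot, ratioPoly_eval]
    have hv0 := hv.fst_ne_zero_of ha
    refine (mul_eq_zero.mp (?_ : v 0 ^ 12 * _ = 0)).resolve_left (pow_ne_zero 12 hv0)
    have e1 := hc4_smul (v 0) 1 (r v)
    have e2 := hD_smul (v 0) 1 (r v)
    have s1 := hesse_syzygy (w 0) (w 1)
    have s2 := hesse_syzygy (v 0) (v 1)
    simp only [r, mul_one, mul_div_cancel₀ _ hv0] at e1 e2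
    rw [hv.eq4] at e1
    rw [hw.eq4, hw.eq6] at s1
    rw [hv.eq4, hv.eq6] at s2
    have h3 : hD (v 0) (v 1) ^ 3 = F5 := by
      refine mul_left_cancel₀ (by norm_num : (1728 : K) ≠ 0) ?_
      rw [hF5def, ← s1, ← s2]
    rw [e2] at h3
    simp only [r]
    linear_combination (-a ^ 3) * h3 +
      (-F5) * (congrArg (· ^ 3) e1 : a ^ 3 = (v 0 ^ 4 * hc4 1 (v 1 / v 0)) ^ 3)
  have hp0 : ratioPoly F5 (a ^ 3) ≠ 0 := fun h => by
    have := ratioPoly_coeff_zero F5 (a ^ 3)
    rw [h, Polynomial.coeff_zero] at this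
    exact hF5 this.symm
  have hsub : Finset.univ.image t ⊆ (ratioPoly F5 (a ^ 3)).roots.toFinset := by
    intro x hx
    obtain ⟨i, -, rfl⟩ := Finset.mem_image.mp hx
    rw [Multiset.mem_toFinset, Polynomial.mem_roots hp0]
    exact hroot _ (hw.smul_matrix (g i))
  have heqset : Finset.univ.image t = (ratioPoly F5 (a ^ 3)).roots.toFinset := by
    refine Finset.eq_of_subset_of_card_le hsub ?_
    rw [Finset.card_image_of_injective _ hinj, Finset.card_univ, Fintype.card_fin]
    have h1 := Multiset.toFinset_card_le (ratioPoly F5 (a ^ 3)).roots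
    have h2 := Polynomial.card_roots' (ratioPoly F5 (a ^ 3))
    have h3 := ratioPoly_natDegree F5 (a ^ 3) hF5
    omega
  have hmem : r w' ∈ Finset.univ.image t := by
    rw [heqset, Multiset.mem_toFinset, Polynomial.mem_roots hp0]
    exact hroot _ hw'
  obtain ⟨i, -, hi⟩ := Finset.mem_image.mp hmem
  obtain ⟨c, hc, hce⟩ := scalar_of_proportional ha hb (hw.smul_matrix (g i)) hw' hi.symm
  refine ⟨⟨c • 1, smul_one_mem_symM hc⟩ * g i, ?_⟩
  rw [hce, Submonoid.coe_mul, Matrix.smul_mul, one_mul, smul_mulVec]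

/-- A symmetry is determined by the image of a parameter. -/
theorem sym_unique {w : Fin 2 → K} {a b : K} (hw : Sat w a b) {g g' : symM K}
    (h : (g : Matrix (Fin 2) (Fin 2) K).mulVec w = (g' : Matrix (Fin 2) (Fin 2) K).mulVec w) :
    g = g' := by
  obtain ⟨η, δ, hη, hδ⟩ := exists_roots (K := K)
  have hr : Roots η δ := ⟨hη, hδ⟩
  have hu : IsUnit (g' : Matrix (Fin 2) (Fin 2) K).det := g'.2.1.isUnit
  have h1 := eq_one_of_fix hr hw (⟨_, inv_mem_symM g'.2⟩ * g) (by
    rw [Submonoid.coe_mul, ← mulVec_mulVec, h, mulVec_mulVec, nonsing_inv_mul _ hu, one_mulVec])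
  refine Subtype.ext ?_
  have h2 := congrArg
    (fun m : symM K => (g' : Matrix (Fin 2) (Fin 2) K) * (m : Matrix (Fin 2) (Fin 2) K)) h1
  simp only [Submonoid.coe_mul, Submonoid.coe_one, mul_one] at h2
  rwa [← mul_assoc, mul_nonsing_inv _ hu, one_mul] at h2

/-- Every target `(a, b)` is attained. -/
theorem exists_sat {a b : K} (ha : a ≠ 0) (hb : b ≠ 0) (hab : a ^ 3 ≠ b ^ 2) :
    ∃ w : Fin 2 → K, Sat w a b := by
  have hd : a ^ 3 - b ^ 2 ≠ 0 := sub_ne_zero.mpr hab
  obtain ⟨t, ht⟩ := IsAlgClosed.exists_root (ratioPoly (a ^ 3 - b ^ 2) (1728 * a ^ 3)) (by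
    intro h
    have hnat := Polynomial.natDegree_eq_zero_iff_degree_le_zero.mpr h.le
    have h12 : (ratioPoly (a ^ 3 - b ^ 2) (1728 * a ^ 3)).coeff 12 = 0 :=
      Polynomial.coeff_eq_zero_of_natDegree_lt (by rw [hnat]; omega)
    have e : ratioPoly (a ^ 3 - b ^ 2) (1728 * a ^ 3) =
        Polynomial.C (19683 * (1728 * a ^ 3)) * Polynomial.X ^ 12 +
        Polynomial.C (10077696 * (a ^ 3 - b ^ 2) - 2187 * (1728 * a ^ 3)) * Polynomial.X ^ 9 +
        Polynomial.C (139968 * (a ^ 3 - b ^ 2) + 81 * (1728 * a ^ 3)) * Polynomial.X ^ 6 +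
        Polynomial.C (648 * (a ^ 3 - b ^ 2) - 1728 * a ^ 3) * Polynomial.X ^ 3 +
        Polynomial.C (a ^ 3 - b ^ 2) := by
      simp only [ratioPoly, hc4, hD, map_add, map_sub, map_mul, map_pow, map_ofNat]
      ring
    rw [e] at h12
    simp only [Polynomial.coeff_add, Polynomial.coeff_C_mul_X_pow, Polynomial.coeff_C] at h12
    norm_num at h12
    exact ha h12)
  rw [Polynomial.IsRoot, ratioPoly_eval] at ht
  have hsyz := hesse_syzygy (1 : K) t
  set H := hc4 (1 : K) t
  set G := hc6 (1 : K) t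
  have hrel : b ^ 2 * H ^ 3 = a ^ 3 * G ^ 2 := by linear_combination -ht + a ^ 3 * hsyz
  have hH : H ≠ 0 := by
    intro h0
    have hG : G = 0 := by
      rw [h0] at hrel
      exact eq_zero_of_pow_eq_zero (n := 2) ((mul_eq_zero.mp (by
        linear_combination -hrel)).resolve_left (pow_ne_zero 3 ha))
    have hf : hD (1 : K) t = 0 := by
      rw [h0, hG] at hsyz
      exact eq_zero_of_pow_eq_zero (n := 3) (by linear_combination -hsyz / 1728)
    exact one_ne_zero (eq_zero_of_common h0 hf).1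
  have hG : G ≠ 0 := fun h0 => by
    rw [h0] at hrel
    exact mul_ne_zero (pow_ne_zero 2 hb) (pow_ne_zero 3 hH) (by linear_combination hrel)
  obtain ⟨u, hu⟩ := IsAlgClosed.exists_pow_nat_eq (b * H / (a * G)) (n := 2) (by norm_num)
  have h2 : (b * H / (a * G)) ^ 2 * H = a := by
    field_simp
    linear_combination hrel
  have h3 : (b * H / (a * G)) ^ 3 * G = b := by
    field_simp
    linear_combination hrel
  refine ⟨![u, u * t], ?_, ?_, hab⟩
  · show hc4 u (u * t) = a
    rw [show u = u * 1 from (mul_one u).symm, mul_assoc, one_mul, hc4_smul]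
    calc u ^ 4 * H = (u ^ 2) ^ 2 * H := by ring
      _ = a := by rw [hu, h2]
  · show hc6 u (u * t) = b
    rw [show u = u * 1 from (mul_one u).symm, mul_assoc, one_mul, hc6_smul]
    calc u ^ 6 * G = (u ^ 2) ^ 3 * G := by ring
      _ = b := by rw [hu, h3]

end FA.Switch.L3
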