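/-
Galois descent of the parameter plane of the universal level `3` curve.
-/
import Fermat.Agent.Switch.Descent
import Fermat.Agent.Switch.Level3.Group
import Fermat.Agent.EC.S51Aux
import Fermat.Agent.Frob.Models
import Mathlib.FieldTheory.Normal.Basic
import Mathlib.FieldTheory.NormalizedTrace
import Mathlib.LinearAlgebra.LinearIndependent.Lemmas

set_option autoImplicit false
set_option linter.unusedSectionVars false

open WeierstrassCurve Matrix
open scoped WeierstrassCurve.Affine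

namespace FA.Switch.L3

noncomputable section

local notation "Qb" => AlgebraicClosure ℚ

/-- Galois automorphisms of `ℚ̄`. -/
local notation "Gal0" => (Qb ≃ₐ[ℚ] Qb)

lemma map_mem_symM (σ : Gal0) {g : Matrix (Fin 2) (Fin 2) Qb} (hg : g ∈ symM Qb) :
    g.map σ ∈ symM Qb := by
  refine ⟨?_, fun w => ?_⟩
  · rw [det_fin_two]
    simp only [Matrix.map_apply, ← map_mul, ← map_sub]
    intro h
    exact hg.1 (by rw [det_fin_two]; exact (map_eq_zero_iff σ σ.injective).mp h)
  · have e : w = fun i => σ (σ.symm (w i)) := by funext i; simp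
    rw [e, ← map_mulVec']
    obtain ⟨h4, h6⟩ := hg.2 (fun i => σ.symm (w i))
    have k4 := map_hc4 (σ : Qb →+* Qb)
    have k6 := map_hc6 (σ : Qb →+* Qb)
    simp only [RingHom.coe_coe] at k4 k6
    exact ⟨by rw [← k4, ← k4, h4], by rw [← k6, ← k6, h6]⟩

/-- A base point of the descent: parameters with rational invariants `(a, b)`. -/
structure Base where
  /-- the `c₄` invariant -/
  a : ℚ
  /-- the `c₆` invariant -/
  b : ℚ
  /-- the parameters -/
  w : Fin 2 → Qb
  ha : a ≠ 0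
  hb : b ≠ 0
  sat : Sat w (algebraMap ℚ Qb a) (algebraMap ℚ Qb b)

lemma exists_base {a b : ℚ} (ha : a ≠ 0) (hb : b ≠ 0) (hab : a ^ 3 ≠ b ^ 2) :
    ∃ B : Base, B.a = a ∧ B.b = b := by
  have hi := (algebraMap ℚ Qb).injective
  obtain ⟨w, hw⟩ := exists_sat (K := Qb) ((map_ne_zero_iff _ hi).mpr ha)
    ((map_ne_zero_iff _ hi).mpr hb)
    (fun h => hab (hi (by rw [map_pow, map_pow, h])))
  exact ⟨⟨a, b, w, ha, hb, hw⟩, rfl, rfl⟩

variable (B : Base)

lemma Base.sat_conj (σ : Gal0) :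
    Sat (fun i => σ (B.w i)) (algebraMap ℚ Qb B.a) (algebraMap ℚ Qb B.b) := by
  have k4 := map_hc4 (σ : Qb →+* Qb)
  have k6 := map_hc6 (σ : Qb →+* Qb)
  simp only [RingHom.coe_coe] at k4 k6
  exact ⟨by rw [← k4, B.sat.eq4, AlgEquiv.commutes],
    by rw [← k6, B.sat.eq6, AlgEquiv.commutes], B.sat.disc⟩

lemma Base.exists_cocycle (σ : Gal0) :
    ∃ g : symM Qb, (g : Matrix (Fin 2) (Fin 2) Qb).mulVec B.w = fun i => σ (B.w i) :=
  exists_sym ((map_ne_zero_iff _ (algebraMap ℚ Qb).injective).mpr B.ha)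
    ((map_ne_zero_iff _ (algebraMap ℚ Qb).injective).mpr B.hb) B.sat (B.sat_conj σ)

/-- The cocycle. -/
def Base.cocycle (σ : Gal0) : symM Qb := (B.exists_cocycle σ).choose

lemma Base.cocycle_spec (σ : Gal0) :
    (B.cocycle σ : Matrix (Fin 2) (Fin 2) Qb).mulVec B.w = fun i => σ (B.w i) :=
  (B.exists_cocycle σ).choose_spec

lemma Base.cocycle_congr {σ τ : Gal0} (h : ∀ i, σ (B.w i) = τ (B.w i)) :
    B.cocycle σ = B.cocycle τ :=
  sym_unique B.sat (by rw [B.cocycle_spec, B.cocycle_spec]; exact funext h)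

lemma Base.cocycle_mul (τ σ : Gal0) :
    (B.cocycle (τ * σ) : Matrix (Fin 2) (Fin 2) Qb) =
      (B.cocycle σ : Matrix (Fin 2) (Fin 2) Qb).map τ * B.cocycle τ := by
  have h : B.cocycle (τ * σ) =
      (⟨_, map_mem_symM τ (B.cocycle σ).2⟩ : symM Qb) * B.cocycle τ := by
    refine sym_unique B.sat ?_
    rw [Submonoid.coe_mul, ← mulVec_mulVec, B.cocycle_spec, B.cocycle_spec, ← map_mulVec']
    funext i
    rw [B.cocycle_spec]
    rfl
  rw [h]
  rfl

/-- The twisted rational plane. -/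
def Base.InV (v : Fin 2 → Qb) : Prop :=
  ∀ σ : Gal0, (B.cocycle σ : Matrix (Fin 2) (Fin 2) Qb).mulVec v = fun i => σ (v i)

lemma Base.inV_base : B.InV B.w := B.cocycle_spec

variable {B}

lemma Base.InV.add_smul {v v' : Fin 2 → Qb} (h : B.InV v) (h' : B.InV v') (q : ℚ) :
    B.InV (fun i => v i + algebraMap ℚ Qb q * v' i) := by
  intro σ
  have e : (fun i => v i + algebraMap ℚ Qb q * v' i) = v + algebraMap ℚ Qb q • v' := rfl
  conv_lhs => rw [e, mulVec_add, mulVec_smul, h σ, h' σ]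
  funext i
  simp

variable (B)

lemma Base.map_inv_cocycle (τ σ : Gal0) :
    (B.cocycle σ : Matrix (Fin 2) (Fin 2) Qb)⁻¹.map τ =
      (B.cocycle τ : Matrix (Fin 2) (Fin 2) Qb) *
        (B.cocycle (τ * σ) : Matrix (Fin 2) (Fin 2) Qb)⁻¹ := by
  set N := (B.cocycle σ : Matrix (Fin 2) (Fin 2) Qb)
  have hN : IsUnit N.det := (B.cocycle σ).2.1.isUnit
  have h1 : N⁻¹.map τ * N.map τ = 1 := by
    rw [← Matrix.map_mul, nonsing_inv_mul _ hN, Matrix.map_one _ (map_zero τ) (map_one τ)]
  have h2 : (B.cocycle τ : Matrix (Fin 2) (Fin 2) Qb) =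
      N⁻¹.map τ * (B.cocycle (τ * σ) : Matrix (Fin 2) (Fin 2) Qb) := by
    rw [B.cocycle_mul τ σ, ← mul_assoc, h1, one_mul]
  rw [h2, mul_assoc, mul_nonsing_inv _ (B.cocycle (τ * σ)).2.1.isUnit, mul_one]

/-- The averaging construction over a finite normal field containing the base parameters. -/
lemma Base.exists_inV_aux (L : IntermediateField ℚ Qb) [Normal ℚ L] [FiniteDimensional ℚ L]
    (hL : ∀ i, B.w i ∈ L) : ∃ v : Fin 2 → Qb, B.InV v ∧ v 0 * B.w 1 - v 1 * B.w 0 ≠ 0 := by
  classical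
  have hnormQ : Normal ℚ Qb := FA.EC.isGalois_algebraicClosure.to_normal
  let lft : (L ≃ₐ[ℚ] L) → Gal0 := fun h => h.liftNormal Qb
  let gi : (L ≃ₐ[ℚ] L) → Matrix (Fin 2) (Fin 2) Qb := fun h =>
    (B.cocycle (lft h) : Matrix (Fin 2) (Fin 2) Qb)⁻¹
  let vv : (Fin 2 → L) → (L ≃ₐ[ℚ] L) → Fin 2 → Qb := fun x h i => ((h (x i) : L) : Qb)
  have hlft : ∀ (h : L ≃ₐ[ℚ] L) (x : L), lft h (x : Qb) = ((h x : L) : Qb) := fun h x =>
    h.liftNormal_commutes Qb x
  have hS : ∀ x, B.InV (∑ h, (gi h).mulVec (vv x h)) := by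
    intro x τ
    have hrc : ∀ y : L, τ (y : Qb) = ((τ.restrictNormal L y : L) : Qb) := fun y =>
      (τ.restrictNormal_commutes L y).symm
    refine mulVec_average τ _ gi (vv x) (τ.restrictNormal L) (fun h => ?_) fun h => ?_
    · have hc : B.cocycle (τ * lft h) = B.cocycle (lft (τ.restrictNormal L * h)) :=
        B.cocycle_congr fun i => by
          obtain ⟨y, hy⟩ : ∃ y : L, (y : Qb) = B.w i := ⟨⟨B.w i, hL i⟩, rfl⟩
          rw [AlgEquiv.mul_apply, ← hy, hlft, hlft, hrc, AlgEquiv.mul_apply]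
      simp only [gi]
      rw [B.map_inv_cocycle, hc]
    · funext i
      simp only [vv, hrc, AlgEquiv.mul_apply]
  by_contra hcon
  push Not at hcon
  let c : Fin 2 → (L ≃ₐ[ℚ] L) → Qb := fun j h => (gi h) 0 j * B.w 1 - (gi h) 1 j * B.w 0
  let emb : (L ≃ₐ[ℚ] L) → (L →* Qb) := fun h =>
    ((algebraMap L Qb).comp (h : L →+* L)).toMonoidHom
  have hemb : Function.Injective emb := by
    intro h h' e
    apply AlgEquiv.ext
    intro y
    exact Subtype.ext (congrArg (fun f : L →* Qb => f y) e)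
  have hli : LinearIndependent Qb (fun h => (emb h : L → Qb)) :=
    (linearIndependent_monoidHom L Qb).comp emb hemb
  have hc : ∀ j, ∀ h, c j h = 0 := by
    intro j
    refine Fintype.linearIndependent_iff.mp hli (c j) ?_
    funext y
    have h0 := hcon _ (hS (Pi.single j y))
    simp only [Finset.sum_apply, Finset.sum_mul, ← Finset.sum_sub_distrib] at h0
    simp only [Finset.sum_apply, Pi.smul_apply, smul_eq_mul, Pi.zero_apply]
    rw [← h0]
    refine Finset.sum_congr rfl fun h _ => ?_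
    show c j h * ((h y : L) : Qb) = _
    fin_cases j <;>
      simp [c, vv, Matrix.mulVec, dotProduct, Fin.sum_univ_two, Pi.single_apply] <;> ring
  have hdet : (gi 1).det = 0 := by
    have h0 := hc 0 1
    have h1 := hc 1 1
    simp only [c] at h0 h1
    rw [det_fin_two]
    refine (mul_eq_zero.mp (?_ : B.w 0 * _ = 0)).resolve_left (B.sat.fst_ne_zero_of ((_root_.map_ne_zero _).mpr B.ha))
    linear_combination (gi 1) 0 1 * h0 - (gi 1) 0 0 * h1
  exact (inv_mem_symM (B.cocycle (lft 1)).2).1 hdet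

/-- A second vector of the twisted plane. -/
lemma Base.exists_inV : ∃ v : Fin 2 → Qb, B.InV v ∧ v 0 * B.w 1 - v 1 * B.w 0 ≠ 0 := by
  have : Algebra.IsAlgebraic ℚ Qb := AlgebraicClosure.isAlgebraic ℚ
  have hnormQ : Normal ℚ Qb := FA.EC.isGalois_algebraicClosure.to_normal
  have : FiniteDimensional ℚ (IntermediateField.adjoin ℚ (Set.range B.w)) :=
    IntermediateField.finiteDimensional_adjoin fun x _ =>
      (Algebra.IsAlgebraic.isAlgebraic x).isIntegral
  have : Normal ℚ (IntermediateField.normalClosure ℚ (IntermediateField.adjoin ℚ (Set.range B.w)) Qb) :=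
    normalClosure.normal _ _ _
  exact B.exists_inV_aux
    (IntermediateField.normalClosure ℚ (IntermediateField.adjoin ℚ (Set.range B.w)) Qb)
    fun i => IntermediateField.le_normalClosure _
      (IntermediateField.subset_adjoin ℚ (Set.range B.w) ⟨i, rfl⟩)

lemma eval_hc4_lineP (v v' : Fin 2 → Qb) (s : Qb) :
    (hc4 (lineP v v' 0) (lineP v v' 1)).eval s = hc4 (v 0 + s * v' 0) (v 1 + s * v' 1) := by
  have := map_hc4 (Polynomial.evalRingHom s) (lineP v v' 0) (lineP v v' 1)
  simpa [eval_lineP] using this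

lemma eval_hc6_lineP (v v' : Fin 2 → Qb) (s : Qb) :
    (hc6 (lineP v v' 0) (lineP v v' 1)).eval s = hc6 (v 0 + s * v' 0) (v 1 + s * v' 1) := by
  have := map_hc6 (Polynomial.evalRingHom s) (lineP v v' 0) (lineP v v' 1)
  simpa [eval_lineP] using this

lemma eval_hD_lineP (v v' : Fin 2 → Qb) (s : Qb) :
    (hD (lineP v v' 0) (lineP v v' 1)).eval s = hD (v 0 + s * v' 0) (v 1 + s * v' 1) := by
  have := map_hD (Polynomial.evalRingHom s) (lineP v v' 0) (lineP v v' 1)
  simpa [eval_lineP] using this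

/-- The frame of the twisted plane, the second vector off the discriminant. -/
lemma Base.exists_frame : ∃ v : Fin 2 → Qb, B.InV v ∧ v 0 * B.w 1 - v 1 * B.w 0 ≠ 0 ∧
    hD (v 0) (v 1) ≠ 0 := by
  obtain ⟨v, hv, hind⟩ := B.exists_inV
  set Q := hD (lineP B.w v 0) (lineP B.w v 1)
  have hQ : Q ≠ 0 := fun h => B.sat.hD_ne_zero (by
    have := eval_hD_lineP B.w v 0
    simpa [Q, h] using this.symm)
  obtain ⟨q, hq0, hq⟩ : ∃ q : ℚ, q ≠ 0 ∧ Q.eval (algebraMap ℚ Qb q) ≠ 0 := by
    by_contra h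
    push Not at h
    refine hQ (Polynomial.eq_zero_of_infinite_isRoot Q (Set.Infinite.mono ?_
      (Set.infinite_range_of_injective (f := fun n : ℕ => algebraMap ℚ Qb (n + 1 : ℚ))
        fun m n e => by simpa using (algebraMap ℚ Qb).injective e)))
    rintro _ ⟨n, rfl⟩
    exact h (n + 1 : ℚ) (by positivity)
  refine ⟨_, B.inV_base.add_smul hv q, ?_, ?_⟩
  · intro h
    exact mul_ne_zero ((map_ne_zero_iff _ (algebraMap ℚ Qb).injective).mpr hq0) hind
      (by linear_combination h)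
  · simpa [Q, eval_hD_lineP] using hq

variable {B}

lemma Base.InV.map_lineP {v v' : Fin 2 → Qb} (h : B.InV v) (h' : B.InV v') (σ : Gal0) :
    (hc4 (lineP v v' 0) (lineP v v' 1)).map (σ : Qb →+* Qb) =
      hc4 (lineP v v' 0) (lineP v v' 1) ∧
    (hc6 (lineP v v' 0) (lineP v v' 1)).map (σ : Qb →+* Qb) =
      hc6 (lineP v v' 0) (lineP v v' 1) := by
  have hl : ∀ i, (lineP v v' i).map (σ : Qb →+* Qb) =
      lineP (fun i => σ (v i)) (fun i => σ (v' i)) i := fun i => by simp [lineP]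
  have k4 := map_hc4 (Polynomial.mapRingHom (σ : Qb →+* Qb)) (lineP v v' 0) (lineP v v' 1)
  have k6 := map_hc6 (Polynomial.mapRingHom (σ : Qb →+* Qb)) (lineP v v' 0) (lineP v v' 1)
  simp only [Polynomial.coe_mapRingHom, hl, ← h σ, ← h' σ] at k4 k6
  have key : ∀ s : Qb, (fun i => (B.cocycle σ : Matrix (Fin 2) (Fin 2) Qb).mulVec v i +
      s * (B.cocycle σ : Matrix (Fin 2) (Fin 2) Qb).mulVec v' i) =
      (B.cocycle σ : Matrix (Fin 2) (Fin 2) Qb).mulVec fun i => v i + s * v' i := by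
    intro s
    rw [show (fun i => v i + s * v' i) = v + s • v' from rfl, mulVec_add, mulVec_smul]
    rfl
  constructor
  · rw [k4]
    refine Polynomial.funext fun s => ?_
    rw [eval_hc4_lineP, eval_hc4_lineP, congrFun (key s) 0, congrFun (key s) 1]
    exact ((B.cocycle σ).2.2 _).1
  · rw [k6]
    refine Polynomial.funext fun s => ?_
    rw [eval_hc6_lineP, eval_hc6_lineP, congrFun (key s) 0, congrFun (key s) 1]
    exact ((B.cocycle σ).2.2 _).2

variable (B)

lemma map_polyC4 {k k' : Type*} [Field k] [Field k'] (f : k →+* k') :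
    MvPolynomial.map f (polyC4 k) = polyC4 k' := by
  simp only [polyC4, map_hc4, MvPolynomial.map_X]

lemma map_polyC6 {k k' : Type*} [Field k] [Field k'] (f : k →+* k') :
    MvPolynomial.map f (polyC6 k) = polyC6 k' := by
  simp only [polyC6, map_hc6, MvPolynomial.map_X]

/-- The semilinear action on the generic torsion. -/
def Base.act (σ : Gal0) : T3 Qb →+ T3 Qb :=
  endoT (((linSubst (B.cocycle σ : Matrix (Fin 2) (Fin 2) Qb)).toRingHom).comp
      (MvPolynomial.map (σ : Qb →+* Qb)))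
    ((linSubst_injective (B.cocycle σ)).comp
      (MvPolynomial.map_injective (σ := Fin 2) _ σ.injective))
    (by rw [RingHom.comp_apply, map_polyC4]; exact linSubst_polyC4 _)
    (by rw [RingHom.comp_apply, map_polyC6]; exact linSubst_polyC6 _)

variable {B}

lemma Base.InV.spt_smul {v : Fin 2 → Qb} {a b : ℚ} (hv : B.InV v)
    (h : Sat v (algebraMap ℚ Qb a) (algebraMap ℚ Qb b)) (σ : Gal0) (P : T3 Qb) :
    toBC a b (spt h (B.act σ P)) = σ • toBC a b (spt h P) := by
  have hτ : (shortKl (algebraMap ℚ Qb a) (algebraMap ℚ Qb b)).map (σ : Qb →+* Qb) =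
      shortKl (algebraMap ℚ Qb a) (algebraMap ℚ Qb b) := by
    rw [shortKl_map]
    simp
  have hev : ∀ p : ParR Qb, MvPolynomial.eval v
      ((((linSubst (B.cocycle σ : Matrix (Fin 2) (Fin 2) Qb)).toRingHom).comp
        (MvPolynomial.map (σ : Qb →+* Qb))) p) = (σ : Qb →+* Qb) (MvPolynomial.eval v p) :=
    fun p => (eval_linSubst (B.cocycle σ : Matrix (Fin 2) (Fin 2) Qb)
      (MvPolynomial.map (σ : Qb →+* Qb) p) v).trans
        ((congrArg (fun w : Fin 2 → Qb =>
          MvPolynomial.eval w (MvPolynomial.map (σ : Qb →+* Qb) p)) (hv σ)).trans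
          (eval_map_algEquiv σ v p))
  rw [Base.act, spt_natural h h _ _ _ _ (σ : Qb →+* Qb) hτ hev]
  rcases spt h P with _ | ⟨x, y, hxy⟩ <;> rfl

/-- Parameters in the twisted plane identify the `3`-torsion with the generic one. -/
def torsionHom {v : Fin 2 → Qb} {a b : ℚ}
    (h : Sat v (algebraMap ℚ Qb a) (algebraMap ℚ Qb b)) :
    T3 Qb →+ Submodule.torsionBy ℤ ((shortKl a b : WeierstrassCurve ℚ).toAffine⁄Qb).Point (3 : ℕ) :=
  AddMonoidHom.mk' (fun P => ⟨toBC a b (spt h P), by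
    rw [Submodule.mem_torsionBy_iff, natCast_zsmul, ← map_nsmul, three_nsmul_spt, map_zero]⟩)
    fun P Q => Subtype.ext (by simp)

lemma torsionHom_bijective {v : Fin 2 → Qb} {a b : ℚ}
    (h : Sat v (algebraMap ℚ Qb a) (algebraMap ℚ Qb b)) :
    Function.Bijective (torsionHom h) := by
  refine ⟨fun P Q e => spt_injective h (FA.Frob.mapHom_injective _ _ (congrArg Subtype.val e)),
    fun Q => ?_⟩
  obtain ⟨η, δ, hη, hδ⟩ := exists_roots (K := Qb)
  have hr : Roots η δ := ⟨hη, hδ⟩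
  have hsurj : ∃ R, toBC a b R = Q.1 := by
    rcases hQ : Q.1 with _ | ⟨x, y, hxy⟩
    · exact ⟨0, rfl⟩
    · exact ⟨.some x y (shortKl_baseChange a b ▸ hxy), rfl⟩
  obtain ⟨R, hR⟩ := hsurj
  have h5 : (3 : ℕ) • R = 0 := FA.Frob.mapHom_injective _ _ (by
    show toBC a b ((3 : ℕ) • R) = toBC a b 0
    have := (Submodule.mem_torsionBy_iff _ _).mp Q.2
    rw [natCast_zsmul, ← hR] at this
    rw [map_nsmul, map_zero]
    exact this)
  obtain ⟨c, hc⟩ := (spt_comb_bijective hr h).2 ⟨R, h5⟩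
  exact ⟨comb hr c, Subtype.ext ((congrArg (toBC a b) (congrArg Subtype.val hc)).trans hR)⟩

/-- Two members of the twisted plane have isomorphic mod `3` representations. -/
theorem Base.InV.galoisRep_charpoly {v v' : Fin 2 → Qb} {a b a' b' : ℚ} (hv : B.InV v)
    (hv' : B.InV v') (h : Sat v (algebraMap ℚ Qb a) (algebraMap ℚ Qb b))
    (h' : Sat v' (algebraMap ℚ Qb a') (algebraMap ℚ Qb b'))
    [(shortKl a b : WeierstrassCurve ℚ).IsElliptic]
    [(shortKl a' b' : WeierstrassCurve ℚ).IsElliptic] (σ : Gal0) :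
    (Affine.Point.galoisRepModuleEnd (K := Qb) ℚ (shortKl a b : WeierstrassCurve ℚ).toAffine 3
        σ).charpoly =
      (Affine.Point.galoisRepModuleEnd (K := Qb) ℚ (shortKl a' b' : WeierstrassCurve ℚ).toAffine 3
        σ).charpoly := by
  let e : Submodule.torsionBy ℤ ((shortKl a b : WeierstrassCurve ℚ).toAffine⁄Qb).Point (3 : ℕ) ≃+
      Submodule.torsionBy ℤ ((shortKl a' b' : WeierstrassCurve ℚ).toAffine⁄Qb).Point (3 : ℕ) :=
    (AddEquiv.ofBijective _ (torsionHom_bijective h)).symm.trans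
      (AddEquiv.ofBijective _ (torsionHom_bijective h'))
  let eL := LinearEquiv.ofBijective (e.toAddMonoidHom.toZModLinearMap 3) e.bijective
  have he : ∀ P, eL (σ • P) = σ • eL P := by
    intro P
    obtain ⟨Q, rfl⟩ := (torsionHom_bijective h).2 P
    have e1 : σ • torsionHom h Q = torsionHom h (B.act σ Q) :=
      Subtype.ext (hv.spt_smul h σ Q).symm
    have e2 : σ • torsionHom h' Q = torsionHom h' (B.act σ Q) :=
      Subtype.ext (hv'.spt_smul h' σ Q).symm
    show e (σ • torsionHom h Q) = σ • e (torsionHom h Q)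
    have key : ∀ R, e (torsionHom h R) = torsionHom h' R := fun R => by
      show (AddEquiv.ofBijective (torsionHom h') (torsionHom_bijective h'))
        ((AddEquiv.ofBijective (torsionHom h) (torsionHom_bijective h)).symm (torsionHom h R)) = _
      rw [show torsionHom h R = AddEquiv.ofBijective (torsionHom h) (torsionHom_bijective h) R
        from rfl, AddEquiv.symm_apply_apply]
      rfl
    rw [e1, key, key, e2]
  rw [← LinearEquiv.charpoly_conj eL]
  congr 1
  refine LinearMap.ext fun P => ?_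
  rw [LinearEquiv.conj_apply_apply]
  exact (he _).trans (congrArg (σ • ·) (eL.apply_symm_apply P))

/-- Two members of the twisted plane have congruent traces of Frobenius. -/
theorem Base.InV.apOfModel_congr {v v' : Fin 2 → Qb} {a b a' b' : ℚ} (hv : B.InV v)
    (hv' : B.InV v') (h : Sat v (algebraMap ℚ Qb a) (algebraMap ℚ Qb b))
    (h' : Sat v' (algebraMap ℚ Qb a') (algebraMap ℚ Qb b')) {W W' : WeierstrassCurve ℤ}
    (hW : W.IsIntegralModelOf (shortKl a b)) (hW' : W'.IsIntegralModelOf (shortKl a' b'))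
    {l : ℕ} (hl : l.Prime) (hgood : W.IsGoodPrimeFor l) (hgood' : W'.IsGoodPrimeFor l)
    (h5 : l ≠ 3) : (W.apOfModel l : ZMod 3) = W'.apOfModel l := by
  have hi := (algebraMap ℚ Qb).injective
  have : (shortKl a b : WeierstrassCurve ℚ).IsElliptic :=
    shortKl_isElliptic fun e => h.disc (by rw [← map_pow, ← map_pow, e])
  have : (shortKl a' b' : WeierstrassCurve ℚ).IsElliptic :=
    shortKl_isElliptic fun e => h'.disc (by rw [← map_pow, ← map_pow, e])
  obtain ⟨A, hA⟩ := FA.Deform.exists_liesOverPrime hl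
  obtain ⟨σ, hσ⟩ := FA.Deform.exists_isFrobeniusAt hl hA
  have e1 := FA.Frob.charpoly_galoisRep_of_model hW hl hgood (p := 3) (Ne.symm h5) hA hσ
  have e2 := FA.Frob.charpoly_galoisRep_of_model hW' hl hgood' (p := 3) (Ne.symm h5) hA hσ
  have := congrArg (fun q : Polynomial (ZMod 3) => q.coeff 1)
    (e1.symm.trans ((hv.galoisRep_charpoly hv' h h' σ).trans e2))
  simpa [Polynomial.coeff_C] using this

end

end FA.Switch.L3
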