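/-
The parameters near a cusp of the level `3` curve in terms of a twisted plane with multiplicative
invariants.
-/
import Fermat.Agent.Switch.Plane

set_option autoImplicit false
set_option linter.unusedSectionVars false

open Matrix
open scoped Pointwise

namespace FA.Switch.L3

noncomputable section

local notation "Qb" => AlgebraicClosure ℚ
local notation "GQ" => AlgebraicClosure ℚ ≃ₐ[ℚ] AlgebraicClosure ℚ

/-- `c₄` on the line `u = 1`, in terms of `T = v³`. -/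
def cH (T : Qb) : Qb := 1 + 216 * T

/-- `c₆` on the line `u = 1`, in terms of `T = v³`. -/
def cG (T : Qb) : Qb := 1 - 540 * T - 5832 * T ^ 2

lemma diag_mem_symM' {c e : Qb} (hc : c ^ 2 = 1) (he : e ^ 3 = c) :
    !![c, 0; 0, e] ∈ symM Qb := by
  have hc0 : c ≠ 0 := fun h => by simp [h] at hc
  have he0 : e ≠ 0 := fun h => hc0 (by rw [← he, h]; ring)
  refine ⟨by simp [det_fin_two, hc0, he0], fun w => ?_⟩
  have h : ∀ i, (!![c, 0; 0, e]).mulVec w i = ![c * w 0, e * w 1] i := fun i => by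
    fin_cases i <;> simp [Matrix.mulVec, dotProduct, Fin.sum_univ_two]
  simp only [h, Matrix.cons_val_zero, Matrix.cons_val_one, hc4, hc6, mul_pow, he,
    show (e : Qb) ^ 6 = c ^ 2 by rw [← he]; ring, hc]
  constructor
  · linear_combination (w 0 * (w 0 ^ 3 * c ^ 2 + w 0 ^ 3 + 216 * w 1 ^ 3)) * hc
  · linear_combination
      (w 0 ^ 6 * (c ^ 4 + c ^ 2 + 1) - 540 * w 0 ^ 3 * w 1 ^ 3 * (c ^ 2 + 1)) * hc

variable {A : ValuationSubring Qb}

/-- Data of a cusp: the small parameter and the scale. -/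
structure CuspData (A : ValuationSubring Qb) (a b Δ T X : Qb) : Prop where
  val : A.valuation T = A.valuation Δ
  small : A.valuation T < 1
  fixT : ∀ σ : GQ, σ • A = A → σ T = T
  fixX : ∀ σ : GQ, σ • A = A → σ X = X
  unitX : A.valuation X = 1
  eq4 : X ^ 2 * cH T = a
  eq6 : X ^ 3 * cG T = b

/-- The small root is fixed and the scale is a unit. -/
lemma exists_cuspData (a b D : ℚ) (hΔ : a ^ 3 - b ^ 2 = 1728 * D) (hab : a ^ 3 ≠ b ^ 2)
    (ha : A.valuation (a : Qb) = 1) (hd : A.valuation (D : Qb) < 1) :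
    ∃ T X : Qb, CuspData A (a : Qb) (b : Qb) (D : Qb) T X ∧ T ≠ 0 := by
  set a' : Qb := (a : Qb) with hadef
  set b' : Qb := (b : Qb) with hbdef
  set D' : Qb := (D : Qb) with hDdef
  have hsyz : a' ^ 3 - b' ^ 2 = 1728 * D' := by
    rw [hadef, hbdef, hDdef]
    exact_mod_cast congrArg (fun x : ℚ => (x : Qb)) hΔ
  have hD0 : D' ≠ 0 := fun h => hab (by
    rw [h, mul_zero] at hsyz
    have := sub_eq_zero.mp hsyz
    rw [hadef, hbdef] at this
    exact_mod_cast this)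
  have ha0 : a' ≠ 0 := ne_zero_of_v_eq_one ha
  have hb : A.valuation b' = 1 := by
    refine v_eq_one_of_pow two_ne_zero ?_
    rw [← map_pow, show b' ^ 2 = a' ^ 3 - 1728 * D' by linear_combination -hsyz]
    exact v_sub_eq_one (by rw [map_pow, ha, one_pow]) (by
      rw [mul_comm]
      exact v_mul_lt_one hd ((A.valuation_le_one_iff _).mpr (ofNat_mem A 1728)))
  set P : Polynomial Qb := (1 + 216 * Polynomial.X) ^ 3 * Polynomial.C D' -
    Polynomial.C (a' ^ 3) * (Polynomial.X * (1 - 27 * Polynomial.X) ^ 3) with hP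
  have hP0 : P.coeff 0 = D' := by
    rw [Polynomial.coeff_zero_eq_eval_zero, hP]
    simp
  have hP1 : P.coeff 1 = 648 * D' - a' ^ 3 := by
    have h := Polynomial.coeff_derivative P 0
    simp only [Nat.cast_zero, zero_add, mul_one] at h
    rw [← h, Polynomial.coeff_zero_eq_eval_zero, hP]
    simp [Polynomial.derivative_pow, Polynomial.derivative_mul]
    ring_nf
    tauto
  obtain ⟨T, hT1, hTroot⟩ := exists_small_root P (A := A) (by
    rw [hP0, hP1, A.valuation.map_sub_swap, v_sub_eq_one (by rw [map_pow, ha, one_pow]) (by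
      rw [mul_comm]
      exact v_mul_lt_one hd ((A.valuation_le_one_iff _).mpr (ofNat_mem A 648)))]
    exact hd)
  have hroot : cH T ^ 3 * D' - a' ^ 3 * (T * (1 - 27 * T) ^ 3) = 0 := by
    have h : P.eval T = 0 := hTroot
    simp [hP] at h
    simpa [cH] using h
  have hU : ∀ (x : Qb) (n : ℕ) [n.AtLeastTwo], A.valuation x < 1 →
      A.valuation ((OfNat.ofNat n : Qb) * x) < 1 := fun x n _ hx => by
    rw [mul_comm]; exact v_mul_lt_one hx ((A.valuation_le_one_iff _).mpr (ofNat_mem A n))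
  have vH : A.valuation (cH T) = 1 := v_add_eq_one A.valuation.map_one (hU T 216 hT1)
  have vG : A.valuation (cG T) = 1 := by
    rw [cG, sub_sub]
    refine v_sub_eq_one A.valuation.map_one (A.valuation.map_add_lt (hU T 540 hT1) (hU _ 5832 ?_))
    rw [map_pow]; exact pow_lt_one₀ zero_le hT1 two_ne_zero
  have vu : ∀ x : Qb, A.valuation x < 1 → A.valuation ((1 - 27 * x) ^ 3) = 1 := fun x hx => by
    rw [map_pow, v_sub_eq_one A.valuation.map_one (hU x 27 hx), one_pow]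
  have hvT : A.valuation T = A.valuation D' := by
    have h := congrArg A.valuation (sub_eq_zero.mp hroot)
    rw [map_mul, map_pow, vH, one_pow, one_mul, map_mul, map_mul, vu T hT1, mul_one, map_pow, ha,
      one_pow, one_mul] at h
    exact h.symm
  have hT0 : T ≠ 0 := fun h => hD0 ((_root_.map_eq_zero A.valuation).mp (by rw [← hvT, h, map_zero]))
  have hfixT : ∀ σ : GQ, σ • A = A → σ T = T := by
    intro σ hσ
    have hs1 : A.valuation (σ T) < 1 := (v_apply_lt_one_iff hσ T).mpr hT1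
    have hrat : ∀ x : ℚ, σ (x : Qb) = x := fun x => map_ratCast σ x
    have hs : cH (σ T) ^ 3 * D' - a' ^ 3 * (σ T * (1 - 27 * σ T) ^ 3) = 0 := by
      have h := congrArg σ hroot
      simp only [cH, map_sub, map_mul, map_pow, map_add, map_one, map_ofNat, map_zero, hadef,
        hDdef, hrat] at h
      simpa only [cH, hadef, hDdef] using h
    set S := σ T
    by_contra hne
    set Sg := cH T ^ 2 + cH T * cH S + cH S ^ 2
    set Y := 1 - 27 * T
    set Y' := 1 - 27 * S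
    have key : (T - S) * (D' * (216 * Sg) -
        a' ^ 3 * (Y ^ 3 + S * (-27 * (Y ^ 2 + Y * Y' + Y' ^ 2)))) = 0 := by
      have e : (T - S) * (D' * (216 * Sg) -
          a' ^ 3 * (Y ^ 3 + S * (-27 * (Y ^ 2 + Y * Y' + Y' ^ 2)))) =
          (cH T ^ 3 * D' - a' ^ 3 * (T * Y ^ 3)) - (cH S ^ 3 * D' - a' ^ 3 * (S * Y' ^ 3)) := by
        simp only [Sg, Y, Y', cH]
        ring
      rw [e, hs, hroot, sub_zero]
    have hz := (mul_eq_zero.mp key).resolve_left (sub_ne_zero.mpr fun h => hne h.symm)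
    have mT : T ∈ A := (A.valuation_le_one_iff T).mp hT1.le
    have mS : S ∈ A := (A.valuation_le_one_iff S).mp hs1.le
    have h1 : A.valuation (D' * (216 * Sg)) < 1 := v_mul_lt_one hd ((A.valuation_le_one_iff _).mpr (by
      have m1 : cH T ∈ A := add_mem (one_mem A) (mul_mem (ofNat_mem A 216) mT)
      have m2 : cH S ∈ A := add_mem (one_mem A) (mul_mem (ofNat_mem A 216) mS)
      apply_rules [mul_mem, add_mem, pow_mem, ofNat_mem]))
    have h2 : A.valuation (a' ^ 3 * (Y ^ 3 + S * (-27 * (Y ^ 2 + Y * Y' + Y' ^ 2)))) = 1 := by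
      rw [map_mul, map_pow, ha, one_pow, one_mul]
      refine v_add_eq_one (vu T hT1) (v_mul_lt_one hs1 ((A.valuation_le_one_iff _).mpr ?_))
      have m1 : Y ∈ A := sub_mem (one_mem A) (mul_mem (ofNat_mem A 27) mT)
      have m2 : Y' ∈ A := sub_mem (one_mem A) (mul_mem (ofNat_mem A 27) mS)
      exact mul_mem (neg_mem (ofNat_mem A 27))
        (add_mem (add_mem (pow_mem m1 2) (mul_mem m1 m2)) (pow_mem m2 2))
    rw [sub_eq_zero.mp hz, h2] at h1
    exact lt_irrefl _ h1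
  set X := b' * cH T / (a' * cG T) with hX
  have vX : A.valuation X = 1 := by rw [hX, map_div₀, map_mul, map_mul, ha, hb, vH, vG]; simp
  have hrel : b' ^ 2 * cH T ^ 3 = a' ^ 3 * cG T ^ 2 := by
    have hs' : cH T ^ 3 - cG T ^ 2 = 1728 * (T * (1 - 27 * T) ^ 3) := by
      simp only [cH, cG]; ring
    linear_combination -cH T ^ 3 * hsyz - 1728 * hroot + a' ^ 3 * hs'
  have hG0 : cG T ≠ 0 := ne_zero_of_v_eq_one vG
  refine ⟨T, X, ⟨hvT, hT1, hfixT, fun σ hσ => ?_, vX, ?_, ?_⟩, hT0⟩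
  · simp only [hX, cH, cG, map_div₀, map_mul, map_sub, map_add, map_pow, map_one, map_ofNat,
      hfixT σ hσ, hadef, hbdef, map_ratCast]
  · rw [hX]; field_simp; linear_combination hrel
  · rw [hX]; field_simp; linear_combination b' * hrel

lemma exists_hD_scalar (g : symM Qb) :
    ∃ ζ : Qb, ζ ^ 3 = 1 ∧ ∀ v : Fin 2 → Qb,
      hD ((g : Matrix (Fin 2) (Fin 2) Qb).mulVec v 0) ((g : Matrix (Fin 2) (Fin 2) Qb).mulVec v 1) =
        ζ * hD (v 0) (v 1) := by
  obtain ⟨ε, hε, hε1⟩ := exists_third_root (K := Qb)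
  have hsum : ε ^ 2 + ε + 1 = 0 :=
    (mul_eq_zero.mp (show (ε - 1) * (ε ^ 2 + ε + 1) = 0 by linear_combination hε)).resolve_left
      (sub_ne_zero.mpr hε1)
  set p := linSubst (g : Matrix (Fin 2) (Fin 2) Qb) (polyD Qb) with hp
  set q := polyD Qb
  have hev : ∀ v : Fin 2 → Qb, MvPolynomial.eval v p =
      hD ((g : Matrix (Fin 2) (Fin 2) Qb).mulVec v 0)
        ((g : Matrix (Fin 2) (Fin 2) Qb).mulVec v 1) := fun v => by
    rw [hp, eval_linSubst, eval_polyD]
  have hcube : p ^ 3 = q ^ 3 := MvPolynomial.funext fun v => by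
    rw [map_pow, map_pow, hev, eval_polyD]
    refine mul_left_cancel₀ (show (1728 : Qb) ≠ 0 by norm_num) ?_
    rw [← hesse_syzygy, ← hesse_syzygy, (g.2.2 v).1, (g.2.2 v).2]
  have hC : (MvPolynomial.C ε : ParR Qb) ^ 2 + MvPolynomial.C ε + 1 = 0 := by
    rw [← map_pow, ← map_add, ← MvPolynomial.C_1, ← map_add, hsum, map_zero]
  have hprod : (p - q) * (p - MvPolynomial.C ε * q) * (p - MvPolynomial.C (ε ^ 2) * q) = 0 := by
    rw [map_pow]
    linear_combination hcube + ((-p ^ 2 * q) + p * q ^ 2 * MvPolynomial.C ε -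
      q ^ 3 * (MvPolynomial.C ε - 1)) * hC
  have key : ∀ ζ : Qb, p - MvPolynomial.C ζ * q = 0 → ∀ v : Fin 2 → Qb,
      hD ((g : Matrix (Fin 2) (Fin 2) Qb).mulVec v 0) ((g : Matrix (Fin 2) (Fin 2) Qb).mulVec v 1) =
        ζ * hD (v 0) (v 1) := fun ζ hζ v => by
    rw [← hev, sub_eq_zero.mp hζ, map_mul, MvPolynomial.eval_C, eval_polyD]
  rcases mul_eq_zero.mp hprod with h | h
  · rcases mul_eq_zero.mp h with h | h
    · exact ⟨1, one_pow 3, key 1 (by rwa [MvPolynomial.C_1, one_mul])⟩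
    · exact ⟨ε, hε, key ε h⟩
  · exact ⟨ε ^ 2, by rw [← pow_mul, mul_comm, pow_mul, hε, one_pow], key _ h⟩

/-- The parameters attached to a normalised point on the line through a cusp. -/
theorem Base.exists_param (B : Base) {e : Fin 2 → Qb} (he : B.InV e) (hind : det2 B.w e ≠ 0)
    {T X : Qb} (hT0 : T ≠ 0) (hX0 : X ≠ 0) (eq4 : X ^ 2 * cH T = (B.a : Qb))
    (eq6 : X ^ 3 * cG T = (B.b : Qb)) (τ₁ τ₂ : ℚ) :
    ∃ r s : Qb, (∀ σ : GQ, σ T = T → σ X = X → σ r = r ∧ σ s = s) ∧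
      hc4 (r * B.w 0 + s * e 0) (r * B.w 1 + s * e 1) =
        X ^ 2 * ((τ₁ : Qb) * ((τ₁ : Qb) ^ 3 + 216 * (τ₂ : Qb) ^ 3 * T)) ∧
      hc6 (r * B.w 0 + s * e 0) (r * B.w 1 + s * e 1) =
        X ^ 3 * ((τ₁ : Qb) ^ 6 - 540 * (τ₁ : Qb) ^ 3 * ((τ₂ : Qb) ^ 3 * T) -
          5832 * ((τ₂ : Qb) ^ 3 * T) ^ 2) ∧
      hD (r * B.w 0 + s * e 0) (r * B.w 1 + s * e 1) * (1 - 27 * T) =
        (τ₂ : Qb) * ((τ₁ : Qb) ^ 3 - 27 * (τ₂ : Qb) ^ 3 * T) * hD (B.w 0) (B.w 1) := by
  have hsat : Sat B.w (B.a : Qb) (B.b : Qb) := by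
    have := B.sat
    simpa only [eq_ratCast] using this
  obtain ⟨t, ht⟩ := IsAlgClosed.exists_pow_nat_eq T (n := 3) (by norm_num)
  obtain ⟨l, hl⟩ := IsAlgClosed.exists_pow_nat_eq X (n := 2) two_pos
  have hl0 : l ≠ 0 := fun h => hX0 (by rw [← hl, h]; ring)
  have ht0 : t ≠ 0 := fun h => hT0 (by rw [← ht, h]; ring)
  have hval : ∀ x y : Qb, hc4 (x * l) (y * (t * l)) = X ^ 2 * (x * (x ^ 3 + 216 * y ^ 3 * T)) ∧
      hc6 (x * l) (y * (t * l)) =
        X ^ 3 * (x ^ 6 - 540 * x ^ 3 * (y ^ 3 * T) - 5832 * (y ^ 3 * T) ^ 2) ∧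
      hD (x * l) (y * (t * l)) = l ^ 4 * t * (y * (x ^ 3 - 27 * y ^ 3 * T)) := fun x y => by
    refine ⟨?_, ?_, ?_⟩
    · rw [show y * (t * l) = l * (y * t) by ring, mul_comm x, hc4_smul, hc4, mul_pow, ht, ← hl]
      ring
    · rw [show y * (t * l) = l * (y * t) by ring, mul_comm x, hc6_smul, hc6, mul_pow, ← hl, ← ht]
      ring
    · rw [show y * (t * l) = l * (y * t) by ring, mul_comm x, hD_smul, hD, mul_pow, ← ht]
      ring
  have hw' : Sat ![l, t * l] (B.a : Qb) (B.b : Qb) := by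
    obtain ⟨e4, e6, -⟩ := hval 1 1
    simp only [one_mul, one_pow, mul_one] at e4 e6
    refine ⟨?_, ?_, hsat.disc⟩
    · rw [← eq4]; simpa [cH] using e4
    · rw [← eq6]; simpa [cG] using e6
  obtain ⟨g, hg⟩ := exists_sym (by simpa using B.ha) (by simpa using B.hb) hw' hsat
  obtain ⟨ζ, -, hζ⟩ := exists_hD_scalar g
  set y : Fin 2 → Qb := ![(τ₁ : Qb) * l, (τ₂ : Qb) * (t * l)] with hy
  set x : Fin 2 → Qb := (g : Matrix (Fin 2) (Fin 2) Qb).mulVec y with hx
  refine ⟨det2 x e / det2 B.w e, det2 B.w x / det2 B.w e, fun σ hσT hσX => ?_, ?_, ?_, ?_⟩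
  · set c := σ l / l with hc
    set e₂ := σ (t * l) / (t * l) with he₂
    have hc2 : c ^ 2 = 1 := by
      rw [hc, div_pow, ← map_pow, hl, hσX, div_self hX0]
    have h2 : e₂ ^ 3 = c := by
      rw [he₂, map_mul, mul_div_mul_comm, mul_pow, div_pow, ← map_pow, ht,
        hσT, div_self hT0, one_mul, ← hc]
      linear_combination c * hc2
    set d : symM Qb := ⟨!![c, 0; 0, e₂], diag_mem_symM' hc2 h2⟩
    have hd' : ∀ u v : Qb, (d : Matrix (Fin 2) (Fin 2) Qb).mulVec ![u * l, v * (t * l)] =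
        ![u * σ l, v * σ (t * l)] := fun u v => by
      funext i
      fin_cases i <;>
        simp [d, hc, he₂, Matrix.mulVec, dotProduct, Fin.sum_univ_two] <;> field_simp
    have hcomm : (⟨_, map_mem_symM σ g.2⟩ : symM Qb) * d = B.cocycle σ * g := by
      refine sym_unique hw' ?_
      rw [Submonoid.coe_mul, Submonoid.coe_mul, ← mulVec_mulVec, ← mulVec_mulVec, hg,
        B.cocycle_spec]
      have h := hd' 1 1
      simp only [one_mul] at h
      rw [h, ← hg, map_mulVec']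
      congr 1
      funext i
      fin_cases i <;> simp
    have hxσ : (B.cocycle σ : Matrix (Fin 2) (Fin 2) Qb).mulVec x = fun i => σ (x i) := by
      rw [hx, map_mulVec', mulVec_mulVec, ← Submonoid.coe_mul, ← hcomm, Submonoid.coe_mul,
        ← mulVec_mulVec]
      congr 1
      rw [hy, hd']
      funext i
      fin_cases i <;> simp
    exact ⟨coord_fixed σ (B.cocycle σ).2.1 hxσ (he σ) (B.cocycle_spec σ) (he σ),
      coord_fixed σ (B.cocycle σ).2.1 (B.cocycle_spec σ) hxσ (B.cocycle_spec σ) (he σ)⟩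
  all_goals
    have hxe := frame_eq hind x
    rw [← congrFun hxe 0, ← congrFun hxe 1, hx]
  · rw [(g.2.2 y).1]
    exact (hval _ _).1
  · rw [(g.2.2 y).2]
    exact (hval _ _).2.1
  · rw [hζ y, ← hg, hζ]
    have h1 := (hval 1 1).2.2
    simp only [one_mul, one_pow, mul_one] at h1
    have h2 := (hval (τ₁ : Qb) (τ₂ : Qb)).2.2
    simp only [hy, Matrix.cons_val_zero, Matrix.cons_val_one]
    rw [h2, h1]
    ring

/-- **The cusp normal form** of a twisted plane with multiplicative invariants. -/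
theorem Base.exists_cusp (B : Base) {e : Fin 2 → Qb} (he : B.InV e) (hind : det2 B.w e ≠ 0)
    (Δ : ℚ) (hΔ : B.a ^ 3 - B.b ^ 2 = 1728 * Δ) (ha : A.valuation (B.a : Qb) = 1)
    (hd : A.valuation (Δ : Qb) < 1) :
    ∃ T X : Qb, CuspData A (B.a : Qb) (B.b : Qb) (Δ : Qb) T X ∧ T ≠ 0 ∧
      ∀ τ₁ τ₂ : ℚ, ∃ r s : Qb, (∀ σ : GQ, σ • A = A → σ r = r ∧ σ s = s) ∧
        hc4 (r * B.w 0 + s * e 0) (r * B.w 1 + s * e 1) =
          X ^ 2 * ((τ₁ : Qb) * ((τ₁ : Qb) ^ 3 + 216 * (τ₂ : Qb) ^ 3 * T)) ∧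
        hc6 (r * B.w 0 + s * e 0) (r * B.w 1 + s * e 1) =
          X ^ 3 * ((τ₁ : Qb) ^ 6 - 540 * (τ₁ : Qb) ^ 3 * ((τ₂ : Qb) ^ 3 * T) -
            5832 * ((τ₂ : Qb) ^ 3 * T) ^ 2) := by
  have hsat : Sat B.w (B.a : Qb) (B.b : Qb) := by
    have := B.sat
    simpa only [eq_ratCast] using this
  have hab : B.a ^ 3 ≠ B.b ^ 2 := fun h =>
    hsat.disc (by exact_mod_cast congrArg (fun x : ℚ => (x : Qb)) h)
  obtain ⟨T, X, hdat, hT0⟩ := exists_cuspData (A := A) B.a B.b Δ hΔ hab ha hd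
  refine ⟨T, X, hdat, hT0, fun τ₁ τ₂ => ?_⟩
  obtain ⟨r, s, hfix, e4, e6, -⟩ := B.exists_param he hind hT0 (ne_zero_of_v_eq_one hdat.unitX)
    hdat.eq4 hdat.eq6 τ₁ τ₂
  exact ⟨r, s, fun σ hσ => hfix σ (hdat.fixT σ hσ) (hdat.fixX σ hσ), e4, e6⟩

end

end FA.Switch.L3
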