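/-
The rational quartic form describing the discriminant on a twisted plane of level `3`, and its
signs.
-/
import Fermat.Agent.Switch.Level3.Cusp
import Fermat.Agent.Switch.Family
import Fermat.Agent.Switch.Sieve
import Fermat.Agent.Switch.SwitchCurve
import Fermat.Prelude.Def_GaloisRep_ComplexConjugation
import Mathlib.Topology.Algebra.Polynomial
import Mathlib.Topology.Order.IntermediateValue
import Mathlib.Analysis.Polynomial.Basic

set_option autoImplicit false
set_option linter.unusedSectionVars false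

open Polynomial Matrix

namespace FA.Switch.L3

noncomputable section

local notation "Qb" => AlgebraicClosure ℚ
local notation "GQ" => AlgebraicClosure ℚ ≃ₐ[ℚ] AlgebraicClosure ℚ

lemma topCoeff_hD {R : Type*} [CommRing R] {u v : R[X]} {x y : R} (hu : TopCoeff 1 u x)
    (hv : TopCoeff 1 v y) : TopCoeff 4 (hD u v) (hD x y) :=
  hv.mul ((hu.pow 3).sub ((TopCoeff.num 27).mul (hv.pow 3)))

/-- The data of the quartic form. -/
structure QuarticData (B : Base) (e : Fin 2 → Qb) (L : ℕ) (Q : ℤ[X]) : Prop where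
  pos : 0 < L
  deg : Q.natDegree ≤ 4
  lead : Q.coeff 4 = (L : ℤ)
  value : ∀ r s : Qb, (L : Qb) * hD (r * B.w 0 + s * e 0) (r * B.w 1 + s * e 1) =
    hD (B.w 0) (B.w 1) * qform Q r s
  separable : ∃ (A C' : ℤ[X]) (R : ℤ), R ≠ 0 ∧ A * Q + C' * derivative Q = C R

theorem Base.exists_quartic (B : Base) {e : Fin 2 → Qb} (he : B.InV e) (hind : det2 B.w e ≠ 0) :
    ∃ (L : ℕ) (Q : ℤ[X]), QuarticData B e L Q := by
  have hsat : Sat B.w (B.a : Qb) (B.b : Qb) := by
    have := B.sat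
    simpa only [eq_ratCast] using this
  set δ := hD (B.w 0) (B.w 1) with hδ
  have hδ0 : δ ≠ 0 := hsat.hD_ne_zero
  set q4 := hD (lineP e B.w 0) (lineP e B.w 1) * Polynomial.C δ⁻¹ with hq4
  have hinv : ∀ σ : GQ, q4.map (σ : Qb →+* Qb) = q4 := by
    intro σ
    obtain ⟨ζ, -, hζ⟩ := exists_hD_scalar (B.cocycle σ)
    have hδσ : σ δ = ζ * δ := by
      have k := map_hD (σ : Qb →+* Qb) (B.w 0) (B.w 1)
      simp only [RingHom.coe_coe] at k
      rw [hδ, k, ← congrFun (B.cocycle_spec σ) 0, ← congrFun (B.cocycle_spec σ) 1, hζ]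
    have hζ0 : ζ ≠ 0 := fun h => hδ0 ((map_eq_zero_iff σ σ.injective).mp (by rw [hδσ, h, zero_mul]))
    have hl : ∀ i, (lineP e B.w i).map (σ : Qb →+* Qb) =
        lineP (fun i => σ (e i)) (fun i => σ (B.w i)) i := fun i => by simp [lineP]
    have k := map_hD (Polynomial.mapRingHom (σ : Qb →+* Qb)) (lineP e B.w 0) (lineP e B.w 1)
    simp only [Polynomial.coe_mapRingHom, hl] at k
    rw [hq4, Polynomial.map_mul, k, Polynomial.map_C]
    refine Polynomial.funext fun s => ?_
    have hev : ∀ v v' : Fin 2 → Qb, (hD (lineP v v' 0) (lineP v v' 1)).eval s =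
        hD (v 0 + s * v' 0) (v 1 + s * v' 1) := fun v v' => by
      have := map_hD (Polynomial.evalRingHom s) (lineP v v' 0) (lineP v v' 1)
      simpa [eval_lineP] using this
    simp only [Polynomial.eval_mul, Polynomial.eval_C, hev, RingHom.coe_coe, map_inv₀, hδσ,
      ← congrFun (he σ), ← congrFun (B.cocycle_spec σ)]
    have hlin : ∀ i, (B.cocycle σ : Matrix (Fin 2) (Fin 2) Qb).mulVec e i +
        s * (B.cocycle σ : Matrix (Fin 2) (Fin 2) Qb).mulVec B.w i =
        (B.cocycle σ : Matrix (Fin 2) (Fin 2) Qb).mulVec (fun i => e i + s * B.w i) i := fun i => by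
      rw [show (fun i => e i + s * B.w i) = e + s • B.w from rfl, mulVec_add, mulVec_smul]
      rfl
    rw [hlin, hlin, hζ]
    field_simp
  obtain ⟨P, hP⟩ := mem_lifts_of_invariant hinv
  have ht : TopCoeff 4 q4 (δ * δ⁻¹) := by
    have h := (topCoeff_hD (TopCoeff.lineP e B.w 0) (TopCoeff.lineP e B.w 1))
    refine ⟨(natDegree_mul_C_le _ _).trans h.1, ?_⟩
    rw [hq4, coeff_mul_C, h.2]
  rw [mul_inv_cancel₀ hδ0] at ht
  have hPdeg : P.natDegree ≤ 4 := by
    rw [← natDegree_map (algebraMap ℚ Qb), hP]; exact ht.1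
  have hP4 : P.coeff 4 = 1 := (algebraMap ℚ Qb).injective (by rw [← coeff_map, hP, ht.2, map_one])
  have hev0 : ∀ t : Qb, q4.eval t = hD (e 0 + t * B.w 0) (e 1 + t * B.w 1) * δ⁻¹ := fun t => by
    have h := map_hD (Polynomial.evalRingHom t) (lineP e B.w 0) (lineP e B.w 1)
    simp only [coe_evalRingHom, eval_lineP] at h
    rw [hq4, eval_mul, eval_C, h]
  have hcop : IsCoprime P (derivative P) := by
    refine (Polynomial.isCoprime_iff_aeval_ne_zero_of_isAlgClosed ℚ Qb P _).mpr fun t => ?_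
    rw [aeval_def, aeval_def, ← eval_map, ← eval_map, ← derivative_map, hP]
    by_contra hcon
    push Not at hcon
    obtain ⟨h0, h1⟩ := hcon
    rw [hev0, mul_eq_zero] at h0
    have h0' := h0.resolve_right (inv_ne_zero hδ0)
    rw [hq4, derivative_mul, derivative_C, mul_zero, add_zero, eval_mul, eval_C, mul_eq_zero] at h1
    have h1' := h1.resolve_right (inv_ne_zero hδ0)
    set u := e 0 + t * B.w 0 with hu
    set z := e 1 + t * B.w 1 with hz
    have e1 : 3 * u ^ 2 * z * B.w 0 + (u ^ 3 - 108 * z ^ 3) * B.w 1 = 0 := by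
      rw [hu, hz]
      simp [hD, lineP, derivative_mul, derivative_pow] at h1'
      linear_combination h1'
    have e2 : 3 * u ^ 2 * z * u + (u ^ 3 - 108 * z ^ 3) * z = 0 := by
      simp only [hD] at h0'
      linear_combination 4 * h0'
    have hdet : B.w 0 * z - B.w 1 * u ≠ 0 := by
      rw [hu, hz]
      intro h
      exact hind (by simp only [det2]; linear_combination h)
    have f1 : 3 * u ^ 2 * z = 0 :=
      (mul_eq_zero.mp (show (B.w 0 * z - B.w 1 * u) * (3 * u ^ 2 * z) = 0 by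
        linear_combination z * e1 - B.w 1 * e2)).resolve_left hdet
    have f2 : u ^ 3 - 108 * z ^ 3 = 0 :=
      (mul_eq_zero.mp (show (B.w 0 * z - B.w 1 * u) * (u ^ 3 - 108 * z ^ 3) = 0 by
        linear_combination B.w 0 * e2 - u * e1)).resolve_left hdet
    have huz : u = 0 ∧ z = 0 := by
      rcases mul_eq_zero.mp f1 with h | h
      · have hu0 : u = 0 := eq_zero_of_pow_eq_zero ((mul_eq_zero.mp h).resolve_left (by norm_num))
        rw [hu0] at f2
        exact ⟨hu0, eq_zero_of_pow_eq_zero (n := 3) (by linear_combination -f2 / 108)⟩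
      · rw [h] at f2
        exact ⟨eq_zero_of_pow_eq_zero (n := 3) (by linear_combination f2), h⟩
    exact hdet (by rw [huz.1, huz.2]; ring)
  obtain ⟨L, Q, hL, hQ⟩ := exists_clear P
  obtain ⟨A, A', hAA⟩ := hcop
  obtain ⟨LA, QA, hLA, hQA⟩ := exists_clear A
  obtain ⟨LB, QB, hLB, hQB⟩ := exists_clear A'
  have hinj : Function.Injective (Int.castRingHom ℚ) := Int.cast_injective
  have hQdeg : Q.natDegree ≤ 4 := by
    rw [← natDegree_map_eq_of_injective hinj, hQ]
    exact natDegree_C_mul_le _ _ |>.trans hPdeg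
  refine ⟨L, Q, hL, hQdeg, ?_, fun r s => ?_, ?_⟩
  · apply Int.cast_injective (α := ℚ)
    have h := congrArg (fun f : ℚ[X] => f.coeff 4) hQ
    simp only [coeff_map, coeff_C_mul, hP4, mul_one, eq_intCast] at h
    rw [h, Int.cast_natCast]
  · rcases eq_or_ne s 0 with rfl | hs
    · have h0 : qform Q r (0 : Qb) = (L : Qb) * r ^ 4 := by
        have hc : (Q.coeff 4 : Qb) = (L : Qb) := by
          have h := congrArg (fun f : ℚ[X] => f.coeff 4) hQ
          simp only [coeff_map, coeff_C_mul, hP4, mul_one, eq_intCast] at h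
          exact_mod_cast h
        simp [qform, Finset.sum_range_succ, hc]
      rw [h0, hD, hD]
      ring
    · have hq : (Q.map (Int.castRingHom Qb)).eval (r / s) = (L : Qb) * q4.eval (r / s) := by
        have hc : (algebraMap ℚ Qb).comp (Int.castRingHom ℚ) = Int.castRingHom Qb :=
          RingHom.ext_int _ _
        rw [← hc, ← Polynomial.map_map, hQ, Polynomial.map_mul, map_C, hP, eval_mul, eval_C,
          map_natCast]
      have h := qform_eq_eval (R := Qb) hQdeg (r / s) s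
      rw [div_mul_cancel₀ _ hs] at h
      rw [h, hq, hev0, show hD (r * B.w 0 + s * e 0) (r * B.w 1 + s * e 1) =
        s ^ 4 * hD (e 0 + r / s * B.w 0) (e 1 + r / s * B.w 1) by
          rw [← hD_smul]; congr 1 <;> field_simp <;> ring, ← hδ]
      field_simp
  · refine ⟨C ((LB : ℤ)) * QA, C ((LA : ℤ)) * QB * 1, (L : ℤ) * LA * LB, ?_, ?_⟩
    · exact mul_ne_zero (mul_ne_zero (by exact_mod_cast hL.ne') (by exact_mod_cast hLA.ne'))
        (by exact_mod_cast hLB.ne')
    · apply Polynomial.map_injective _ hinj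
      simp only [Polynomial.map_add, Polynomial.map_mul, map_C, eq_intCast, Polynomial.map_one,
        ← derivative_map, hQA, hQB, hQ, derivative_C_mul, Int.cast_natCast, Int.cast_mul, map_mul,
        Polynomial.map_natCast, map_natCast]
      simp only [derivative_mul, derivative_natCast, zero_mul, zero_add]
      linear_combination ((L : ℚ[X]) * (LA : ℚ[X]) * (LB : ℚ[X])) * hAA

lemma qform_real {Q : ℤ[X]} (hQ : Q.natDegree ≤ 4) (r s : ℝ) (hs : s ≠ 0) :
    qform Q r s = s ^ 4 * (Q.map (Int.castRingHom ℝ)).eval (r / s) := by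
  have h := qform_eq_eval hQ (r / s) s
  rwa [div_mul_cancel₀ _ hs] at h

lemma exists_preimage_root {P : ℚ[X]} (hP : P ≠ 0) {T : ℝ}
    (hT : (P.map (algebraMap ℚ ℝ)).eval T = 0) :
    ∃ T' : Qb, complexEmbedding T' = (T : ℂ) ∧ (P.map (algebraMap ℚ Qb)).eval T' = 0 := by
  set ι : Qb →+* ℂ := complexEmbedding.toRingHom
  have hPb : P.map (algebraMap ℚ Qb) ≠ 0 := map_ne_zero hP
  have hc : ι.comp (algebraMap ℚ Qb) = algebraMap ℚ ℂ := RingHom.ext_rat _ _
  have hC : ((P.map (algebraMap ℚ Qb)).map ι).eval (T : ℂ) = 0 := by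
    rw [Polynomial.map_map, hc,
      show (algebraMap ℚ ℂ) = Complex.ofRealHom.comp (algebraMap ℚ ℝ) from RingHom.ext_rat _ _,
      ← Polynomial.map_map, eval_map, show (T : ℂ) = Complex.ofRealHom T from rfl, eval₂_at_apply,
      hT, map_zero]
  rw [(IsAlgClosed.splits (P.map (algebraMap ℚ Qb))).eq_prod_roots, Polynomial.map_mul, map_C,
    Polynomial.map_multiset_prod, eval_mul, eval_C, eval_multiset_prod, mul_eq_zero] at hC
  have h0 := hC.resolve_left ((_root_.map_ne_zero ι).mpr (leadingCoeff_ne_zero.mpr hPb))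
  rw [Multiset.prod_eq_zero_iff] at h0
  simp only [Multiset.map_map, Multiset.mem_map, Function.comp_apply, Polynomial.map_sub, map_X,
    map_C, eval_sub, eval_X, eval_C] at h0
  obtain ⟨x, hx, hx'⟩ := h0
  exact ⟨x, (sub_eq_zero.mp hx').symm, (mem_roots'.mp hx).2⟩

set_option maxHeartbeats 1600000 in
/-- The form takes negative values when the discriminant is positive. -/
theorem QuarticData.exists_neg {B : Base} {e : Fin 2 → Qb} {L : ℕ} {Q : ℤ[X]}
    (h : QuarticData B e L Q) (he : B.InV e) (hind : det2 B.w e ≠ 0) (Δ : ℚ)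
    (hΔ : B.a ^ 3 - B.b ^ 2 = 1728 * Δ) (hpos : 0 < Δ) :
    ∃ t : ℝ, (Q.map (Int.castRingHom ℝ)).eval t < 0 := by
  have hsat : Sat B.w (B.a : Qb) (B.b : Qb) := by
    have := B.sat
    simpa only [eq_ratCast] using this
  set a : ℝ := (B.a : ℝ)
  set b : ℝ := (B.b : ℝ)
  set D : ℝ := (Δ : ℝ)
  have hD0 : 0 < D := Rat.cast_pos.mpr hpos
  have hrel : a ^ 3 - b ^ 2 = 1728 * D := by
    have := congrArg (fun x : ℚ => (x : ℝ)) hΔ
    push_cast at this
    exact this
  have hb : b ≠ 0 := Rat.cast_ne_zero.mpr B.hb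
  have ha3 : 0 < a ^ 3 := by nlinarith [sq_nonneg b]
  have ha : 0 < a := by
    by_contra hle
    nlinarith [sq_nonneg a, mul_nonpos_of_nonpos_of_nonneg (not_lt.mp hle) (sq_nonneg a)]
  set f : ℝ → ℝ := fun x => (1 + 216 * x) ^ 3 * D - a ^ 3 * (x * (1 - 27 * x) ^ 3) with hf
  obtain ⟨z, hz1, hz2, hz⟩ : ∃ z : ℝ, 0 < z ∧ z < 1 / 27 ∧ 1 - 540 * z - 5832 * z ^ 2 = 0 := by
    obtain ⟨z, hz, hz0⟩ := intermediate_value_Icc' (a := (0 : ℝ)) (b := 1 / 40) (by norm_num)
      (f := fun z : ℝ => 1 - 540 * z - 5832 * z ^ 2) (by fun_prop)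
      (show (0 : ℝ) ∈ Set.Icc _ _ from ⟨by norm_num, by norm_num⟩)
    exact ⟨z, lt_of_le_of_ne hz.1 fun h => by rw [← h] at hz0; norm_num at hz0,
      hz.2.trans_lt (by norm_num), hz0⟩
  have hfz : f z < 0 := by
    have hH : (1 + 216 * z) ^ 3 = 1728 * (z * (1 - 27 * z) ^ 3) := by
      linear_combination (1 - 540 * z - 5832 * z ^ 2) * hz
    have h1 : f z = -(b ^ 2) * (z * (1 - 27 * z) ^ 3) := by
      simp only [hf, hH]
      linear_combination -(z * (1 - 27 * z) ^ 3) * hrel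
    rw [h1, neg_mul, neg_lt_zero]
    have : 0 < 1 - 27 * z := by linarith
    exact mul_pos (by positivity) (mul_pos hz1 (pow_pos this 3))
  obtain ⟨T, hT, hT0⟩ := intermediate_value_Icc' hz1.le (f := f) (by simp only [hf]; fun_prop)
    (show (0 : ℝ) ∈ Set.Icc _ _ from ⟨hfz.le, by simp [hf, hD0.le]⟩)
  have hT1 : 0 < T := lt_of_le_of_ne hT.1 fun h => by
    rw [← h] at hT0; simp [hf] at hT0; linarith
  have hT2 : T < z := lt_of_le_of_ne hT.2 fun h => by rw [h] at hT0; linarith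
  have hG : 0 < 1 - 540 * T - 5832 * T ^ 2 := by nlinarith
  have hH : 0 < 1 + 216 * T := by linarith
  -- transfer to `ℚ̄`
  set P : ℚ[X] := (1 + 216 * X) ^ 3 * C Δ - C (B.a ^ 3) * (X * (1 - 27 * X) ^ 3) with hP
  have hPT : (P.map (algebraMap ℚ ℝ)).eval T = 0 := by
    rw [← hT0]
    simp [hP, hf, a, D]
  obtain ⟨T', hT', hroot⟩ := exists_preimage_root (fun h0 => hpos.ne' (by
    have := congrArg (Polynomial.eval 0) h0
    simpa [hP] using this)) hPT
  simp [hP] at hroot
  have hι : ∀ x : ℚ, complexEmbedding (x : Qb) = (x : ℂ) := fun x => map_ratCast complexEmbedding x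
  set X' : Qb := (B.b : Qb) * cH T' / ((B.a : Qb) * cG T') with hX'
  have hH' : complexEmbedding (cH T') = ((1 + 216 * T : ℝ) : ℂ) := by simp [cH, hT', map_ofNat]
  have hG' : complexEmbedding (cG T') = ((1 - 540 * T - 5832 * T ^ 2 : ℝ) : ℂ) := by
    simp [cG, hT', map_ofNat]
  have hH0 : cH T' ≠ 0 := fun h0 => hH.ne' (Complex.ofReal_eq_zero.mp (by rw [← hH', h0, map_zero]))
  have hG0 : cG T' ≠ 0 := fun h0 => hG.ne' (Complex.ofReal_eq_zero.mp (by rw [← hG', h0, map_zero]))
  have ha' : (B.a : Qb) ≠ 0 := Rat.cast_ne_zero.mpr B.ha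
  have hb' : (B.b : Qb) ≠ 0 := Rat.cast_ne_zero.mpr B.hb
  have hX0 : X' ≠ 0 := div_ne_zero (mul_ne_zero hb' hH0) (mul_ne_zero ha' hG0)
  have hTne : T' ≠ 0 := fun h0 => hT1.ne' (Complex.ofReal_eq_zero.mp (by rw [← hT', h0, map_zero]))
  have hrelQ : (B.b : Qb) ^ 2 * cH T' ^ 3 = (B.a : Qb) ^ 3 * cG T' ^ 2 := by
    have hsyz : (B.a : Qb) ^ 3 - (B.b : Qb) ^ 2 = 1728 * (Δ : Qb) := by
      exact_mod_cast congrArg (fun x : ℚ => (x : Qb)) hΔ
    have hs' : cH T' ^ 3 - cG T' ^ 2 = 1728 * (T' * (1 - 27 * T') ^ 3) := by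
      simp only [cH, cG]; ring
    simp only [cH] at hroot ⊢
    simp only [cH] at hs'
    linear_combination -(1 + 216 * T') ^ 3 * hsyz - 1728 * hroot + (B.a : Qb) ^ 3 * hs'
  have eq4 : X' ^ 2 * cH T' = (B.a : Qb) := by
    rw [hX']; field_simp; linear_combination hrelQ
  have eq6 : X' ^ 3 * cG T' = (B.b : Qb) := by
    rw [hX']; field_simp; linear_combination hrelQ
  obtain ⟨r, s, hfix, -, -, hDv⟩ := B.exists_param he hind hTne hX0 eq4 eq6 1 (-1)
  set c := complexConjugation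
  have hcT : c T' = T' := complexEmbedding.toRingHom.injective (by
    show complexEmbedding (c T') = complexEmbedding T'
    rw [complexEmbedding_complexConjugation, hT', Complex.conj_ofReal])
  have hcX : c X' = X' := by
    simp only [hX', cH, cG, map_div₀, map_mul, map_add, map_sub, map_pow, map_one, map_ofNat, hcT,
      map_ratCast]
  obtain ⟨hr, hs⟩ := hfix c hcT hcX
  obtain ⟨rR, hrR⟩ := Complex.conj_eq_iff_real.mp
    (show (starRingEnd ℂ) (complexEmbedding r) = complexEmbedding r by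
      rw [← complexEmbedding_complexConjugation, hr])
  obtain ⟨sR, hsR⟩ := Complex.conj_eq_iff_real.mp
    (show (starRingEnd ℂ) (complexEmbedding s) = complexEmbedding s by
      rw [← complexEmbedding_complexConjugation, hs])
  have h27 : (0 : ℝ) < 1 - 27 * T := by linarith
  have hval : qform Q r s * (1 - 27 * T') = -((L : Qb) * (1 + 27 * T')) := by
    refine mul_left_cancel₀ hsat.hD_ne_zero ?_
    rw [← mul_assoc, ← h.value, mul_assoc, hDv]
    push_cast
    ring
  have hvalR : qform Q rR sR * (1 - 27 * T) = -((L : ℝ) * (1 + 27 * T)) := by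
    apply Complex.ofReal_injective
    have hh := congrArg complexEmbedding.toRingHom hval
    simp only [map_mul, map_sub, map_neg, map_add, map_one, map_qform, map_natCast, map_ofNat] at hh
    simp only [AlgHom.toRingHom_eq_coe, RingHom.coe_coe, hT', hrR, hsR] at hh
    have hq : ((qform Q rR sR : ℝ) : ℂ) = qform Q (rR : ℂ) (sR : ℂ) :=
      map_qform Complex.ofRealHom Q rR sR
    push_cast
    rw [hq]
    exact hh
  have hneg : qform Q rR sR < 0 := by
    by_contra hc
    have : 0 < (L : ℝ) * (1 + 27 * T) := mul_pos (Nat.cast_pos.mpr h.pos) (by linarith)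
    nlinarith [mul_nonneg (not_lt.mp hc) h27.le]
  rcases eq_or_ne sR 0 with hs0 | hs0
  · exfalso
    rw [hs0] at hneg
    simp [qform, Finset.sum_range_succ, h.lead] at hneg
    nlinarith [show (0 : ℝ) ≤ (L : ℝ) * rR ^ 4 from mul_nonneg (Nat.cast_nonneg L) (by positivity)]
  · refine ⟨rR / sR, ?_⟩
    rw [qform_real h.deg _ _ hs0] at hneg
    by_contra hc
    nlinarith [mul_nonneg (show (0 : ℝ) ≤ sR ^ 4 by positivity) (not_lt.mp hc)]

/-- A rational slope near which the discriminants are negative. -/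
theorem QuarticData.exists_cone {B : Base} {e : Fin 2 → Qb} {L : ℕ} {Q : ℤ[X]}
    (h : QuarticData B e L Q) (he : B.InV e) (hind : det2 B.w e ≠ 0) (Δ : ℤ)
    (hΔ : B.a ^ 3 - B.b ^ 2 = 1728 * (Δ : ℚ)) (hΔ0 : Δ ≠ 0) :
    ∃ (u w : ℤ) (K : ℕ), 0 < w ∧ ∀ a b : ℤ, 0 < b → (K : ℤ) * |a * w - b * u| ≤ b * w →
      Δ * qform Q a b < 0 := by
  set g : ℝ → ℝ := fun t => (Δ : ℝ) * (Q.map (Int.castRingHom ℝ)).eval t
  have hg : Continuous g := continuous_const.mul (Polynomial.continuous _)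
  obtain ⟨t, ht⟩ : ∃ t, g t < 0 := by
    rcases lt_or_gt_of_ne hΔ0 with hneg | hpos
    · set Qr := Q.map (Int.castRingHom ℝ)
      have hl : Qr.coeff 4 = (L : ℝ) := by simp [Qr, h.lead]
      have hL : (0 : ℝ) < L := Nat.cast_pos.mpr h.pos
      have hd : Qr.natDegree = 4 := natDegree_eq_of_le_of_coeff_ne_zero
        (natDegree_map_le.trans h.deg) (by rw [hl]; exact hL.ne')
      have htop : Filter.Tendsto (fun x => Qr.eval x) Filter.atTop Filter.atTop :=
        Polynomial.tendsto_atTop_of_leadingCoeff_nonneg Qr (by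
          rw [degree_eq_natDegree (by intro h0; rw [h0] at hd; simp at hd), hd]
          exact Nat.cast_pos.mpr (by norm_num)) (by rw [leadingCoeff, hd, hl]; exact hL.le)
      obtain ⟨t, ht⟩ := (htop.eventually_gt_atTop 0).exists
      exact ⟨t, mul_neg_of_neg_of_pos (Int.cast_lt_zero.mpr hneg) ht⟩
    · obtain ⟨t, ht⟩ := h.exists_neg he hind (Δ : ℚ) hΔ (Int.cast_pos.mpr hpos)
      exact ⟨t, mul_neg_of_pos_of_neg (Int.cast_pos.mpr hpos) ht⟩
  obtain ⟨q, hq⟩ := Rat.denseRange_cast.exists_mem_open (isOpen_Iio.preimage hg)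
    (⟨t, ht⟩ : (g ⁻¹' Set.Iio 0).Nonempty)
  obtain ⟨ε, hε, hball⟩ := Metric.isOpen_iff.mp (isOpen_Iio.preimage hg) (q : ℝ) hq
  obtain ⟨K, hK⟩ := exists_nat_gt (1 / ε)
  refine ⟨q.num, q.den, K, by exact_mod_cast q.den_pos, fun a b hb hcone => ?_⟩
  have hbR : (0 : ℝ) < b := Int.cast_pos.mpr hb
  have hwR : (0 : ℝ) < (q.den : ℝ) := Nat.cast_pos.mpr q.den_pos
  have hc : (K : ℝ) * |(a : ℝ) * q.den - b * q.num| ≤ b * q.den := by exact_mod_cast hcone
  have hK0 : (0 : ℝ) < K := (one_div_pos.mpr hε).trans hK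
  have hnear : dist ((a : ℝ) / b) (q : ℝ) < ε := by
    rw [Real.dist_eq, Rat.cast_def, div_sub_div _ _ hbR.ne' hwR.ne', abs_div,
      abs_of_pos (mul_pos hbR hwR), div_lt_iff₀ (mul_pos hbR hwR)]
    refine lt_of_mul_lt_mul_left (a := (K : ℝ)) (hc.trans_lt ?_) hK0.le
    rw [div_lt_iff₀ hε] at hK
    nlinarith [mul_pos hbR hwR]
  have hgv : g ((a : ℝ) / b) < 0 := hball hnear
  have hr := qform_real h.deg (a : ℝ) (b : ℝ) hbR.ne'
  rw [← Int.cast_lt (R := ℝ), Int.cast_mul, Int.cast_zero, ← eq_intCast (Int.castRingHom ℝ)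
    (qform Q a b), map_qform, eq_intCast, eq_intCast, hr, mul_left_comm]
  exact mul_neg_of_pos_of_neg (pow_pos hbR 4) hgv

end

end FA.Switch.L3
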